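/-
Case I of Fermat's Last Theorem for the exponents 5, 7, 11, 13, by Sophie Germain's theorem
(with auxiliary primes 11, 29, 23, 53).  Elementary, over `ℤ`.
-/
import Mathlib

set_option autoImplicit false

namespace Fermat.Agent.Kummer

open Finset

/-- The cofactor `(u ^ p + v ^ p) / (u + v)` for odd `p`. -/
def sgPhi (p : ℕ) (u v : ℤ) : ℤ := ∑ i ∈ range p, u ^ i * (-v) ^ (p - 1 - i)

lemma sgPhi_mul {p : ℕ} (hp : Odd p) (u v : ℤ) : (u + v) * sgPhi p u v = u ^ p + v ^ p := by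
  have := geom_sum₂_mul u (-v) p
  rw [sub_neg_eq_add, hp.neg_pow, sub_neg_eq_add] at this
  rw [mul_comm]
  exact this

lemma sgPhi_cast {R : Type*} [CommRing R] (p : ℕ) (u v : ℤ) :
    ((sgPhi p u v : ℤ) : R) = ∑ i ∈ range p, (u : R) ^ i * (-(v : R)) ^ (p - 1 - i) := by
  simp [sgPhi]

lemma sgPhi_cast_of_add_eq_zero {R : Type*} [CommRing R] (p : ℕ) (u v : ℤ)
    (h : ((u + v : ℤ) : R) = 0) :
    ((sgPhi p u v : ℤ) : R) = p * (u : R) ^ (p - 1) := by
  have hv : -(v : R) = u := by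
    push_cast at h
    linear_combination -h
  rw [sgPhi_cast, hv, geom_sum₂_self]

lemma sgPhi_cast_of_left_eq_zero {R : Type*} [CommRing R] {p : ℕ} (hp : Odd p) (u v : ℤ)
    (h : ((u : ℤ) : R) = 0) :
    ((sgPhi p u v : ℤ) : R) = (v : R) ^ (p - 1) := by
  have hp0 : 0 < p := hp.pos
  have heven : Even (p - 1) := by
    obtain ⟨k, hk⟩ := hp
    exact ⟨k, by omega⟩
  rw [sgPhi_cast, h, Finset.sum_eq_single 0]
  · simp [heven.neg_pow]
  · intro i _ hi
    simp [hi]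
  · intro h0
    exact absurd (Finset.mem_range.mpr hp0) h0

lemma sg_isCoprime {p : ℕ} (hp : p.Prime) (hodd : Odd p) {u v w : ℤ} (huv : IsCoprime u v)
    (h : u ^ p + v ^ p = w ^ p) (hpw : ¬ (p : ℤ) ∣ w) : IsCoprime (u + v) (sgPhi p u v) := by
  rw [Int.isCoprime_iff_gcd_eq_one]
  by_contra hg
  obtain ⟨r, hr, hrdvd⟩ := Nat.exists_prime_and_dvd hg
  have h1 : (r : ℤ) ∣ u + v := (Int.natCast_dvd_natCast.mpr hrdvd).trans (Int.gcd_dvd_left ..)
  have h2 : (r : ℤ) ∣ sgPhi p u v :=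
    (Int.natCast_dvd_natCast.mpr hrdvd).trans (Int.gcd_dvd_right ..)
  have : Fact r.Prime := ⟨hr⟩
  have h1' : ((u + v : ℤ) : ZMod r) = 0 := (ZMod.intCast_zmod_eq_zero_iff_dvd _ _).mpr h1
  have h2' : ((sgPhi p u v : ℤ) : ZMod r) = 0 := (ZMod.intCast_zmod_eq_zero_iff_dvd _ _).mpr h2
  rw [sgPhi_cast_of_add_eq_zero p u v h1'] at h2'
  rcases mul_eq_zero.mp h2' with hp0 | hu0
  · have hrp' : r ∣ p := (ZMod.natCast_eq_zero_iff p r).mp hp0
    have hrp : r = p := (Nat.prime_dvd_prime_iff_eq hr hp).mp hrp'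
    subst hrp
    have : (r : ℤ) ∣ w ^ r := by
      rw [← h, ← sgPhi_mul hodd]
      exact Dvd.dvd.mul_right h1 _
    exact hpw (Int.Prime.dvd_pow' hr this)
  · have hu0' : ((u : ℤ) : ZMod r) = 0 := pow_eq_zero_iff (by
      have := hp.two_le; omega) |>.mp hu0
    have hu : (r : ℤ) ∣ u := (ZMod.intCast_zmod_eq_zero_iff_dvd _ _).mp hu0'
    have hv : (r : ℤ) ∣ v := (Int.dvd_add_right hu).mp h1
    have hunit := huv.isUnit_of_dvd' hu hv
    rw [Int.isUnit_iff_natAbs_eq] at hunit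
    simp at hunit
    exact hr.one_lt.ne' hunit

lemma sg_exists_pow {p : ℕ} (hp : p.Prime) (hodd : Odd p) {u v w : ℤ} (huv : IsCoprime u v)
    (h : u ^ p + v ^ p = w ^ p) (hpw : ¬ (p : ℤ) ∣ w) :
    (∃ a : ℤ, u + v = a ^ p) ∧ (∃ α : ℤ, sgPhi p u v = α ^ p) := by
  have hcop := sg_isCoprime hp hodd huv h hpw
  have hmul : (u + v) * sgPhi p u v = w ^ p := by rw [sgPhi_mul hodd, h]
  exact ⟨Int.eq_pow_of_mul_eq_pow_odd_left hcop hodd hmul,
    Int.eq_pow_of_mul_eq_pow_odd_right hcop hodd hmul⟩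

lemma sg_not_both_dvd {q : ℕ} (hq : q.Prime) {u v : ℤ} (huv : IsCoprime u v)
    (hu : (q : ℤ) ∣ u) (hv : (q : ℤ) ∣ v) : False := by
  have hunit := huv.isUnit_of_dvd' hu hv
  rw [Int.isUnit_iff_natAbs_eq] at hunit
  simp at hunit
  exact hq.one_lt.ne' hunit

lemma sg_case {p q : ℕ} (hp : p.Prime) (hodd : Odd p) (hq : q.Prime)
    (h1 : ∀ x y z : ZMod q, x ^ p + y ^ p + z ^ p = 0 → x = 0 ∨ y = 0 ∨ z = 0)
    (h2 : ∀ x : ZMod q, x ^ p ≠ (p : ZMod q))
    {x y z : ℤ} (hxy : IsCoprime x y) (hyz : IsCoprime y z) (hzx : IsCoprime z x)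
    (h : x ^ p + y ^ p + z ^ p = 0) (hpx : ¬ (p : ℤ) ∣ x) (hpy : ¬ (p : ℤ) ∣ y)
    (hpz : ¬ (p : ℤ) ∣ z) (hqx : (q : ℤ) ∣ x) : False := by
  have : Fact q.Prime := ⟨hq⟩
  have hx' : ¬ (p : ℤ) ∣ -x := by rwa [dvd_neg]
  have hy' : ¬ (p : ℤ) ∣ -y := by rwa [dvd_neg]
  have hz' : ¬ (p : ℤ) ∣ -z := by rwa [dvd_neg]
  have e1 : y ^ p + z ^ p = (-x) ^ p := by rw [hodd.neg_pow]; linear_combination h
  have e2 : z ^ p + x ^ p = (-y) ^ p := by rw [hodd.neg_pow]; linear_combination h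
  have e3 : x ^ p + y ^ p = (-z) ^ p := by rw [hodd.neg_pow]; linear_combination h
  obtain ⟨⟨a, ha⟩, ⟨α, hα⟩⟩ := sg_exists_pow hp hodd hyz e1 hx'
  obtain ⟨⟨b, hb⟩, -⟩ := sg_exists_pow hp hodd hzx e2 hy'
  obtain ⟨⟨c, hc⟩, ⟨γ, hγ⟩⟩ := sg_exists_pow hp hodd hxy e3 hz'
  have hx0 : ((x : ℤ) : ZMod q) = 0 := (ZMod.intCast_zmod_eq_zero_iff_dvd _ _).mpr hqx
  have hy0 : ((y : ℤ) : ZMod q) ≠ 0 := fun hy0 =>
    sg_not_both_dvd hq hxy hqx ((ZMod.intCast_zmod_eq_zero_iff_dvd _ _).mp hy0)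
  have hz0 : ((z : ℤ) : ZMod q) ≠ 0 := fun hz0 =>
    sg_not_both_dvd hq hzx ((ZMod.intCast_zmod_eq_zero_iff_dvd _ _).mp hz0) hqx
  have ha' : (y : ZMod q) + z = (a : ZMod q) ^ p := by exact_mod_cast congrArg (Int.cast : ℤ → ZMod q) ha
  have hb' : (z : ZMod q) + x = (b : ZMod q) ^ p := by exact_mod_cast congrArg (Int.cast : ℤ → ZMod q) hb
  have hc' : (x : ZMod q) + y = (c : ZMod q) ^ p := by exact_mod_cast congrArg (Int.cast : ℤ → ZMod q) hc
  have hsum : (b : ZMod q) ^ p + (c : ZMod q) ^ p + (-(a : ZMod q)) ^ p = 0 := by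
    rw [hodd.neg_pow, ← ha', ← hb', ← hc', hx0]
    ring
  rcases h1 _ _ _ hsum with hb0 | hc0 | ha0
  · rw [hb0, zero_pow hp.ne_zero, hx0, add_zero] at hb'
    exact hz0 hb'
  · rw [hc0, zero_pow hp.ne_zero, hx0, zero_add] at hc'
    exact hy0 hc'
  · have ha0' : (a : ZMod q) = 0 := neg_eq_zero.mp ha0
    have hyz0 : ((y + z : ℤ) : ZMod q) = 0 := by
      push_cast
      rw [ha', ha0', zero_pow hp.ne_zero]
    have hα' : (α : ZMod q) ^ p = p * (y : ZMod q) ^ (p - 1) := by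
      rw [← sgPhi_cast_of_add_eq_zero p y z hyz0, hα]
      push_cast
      rfl
    have hγ' : (γ : ZMod q) ^ p = (y : ZMod q) ^ (p - 1) := by
      rw [← sgPhi_cast_of_left_eq_zero hodd x y hx0, hγ]
      push_cast
      rfl
    have hy' : (y : ZMod q) ^ (p - 1) ≠ 0 := pow_ne_zero _ hy0
    apply h2 ((α : ZMod q) / γ)
    rw [div_pow, hα', hγ']
    exact mul_div_cancel_right₀ _ hy'

/-- Sophie Germain's theorem in the generalised form (auxiliary prime `q`). -/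
theorem sophieGermain_generic {p q : ℕ} (hp : p.Prime) (hodd : Odd p) (hq : q.Prime)
    (h1 : ∀ x y z : ZMod q, x ^ p + y ^ p + z ^ p = 0 → x = 0 ∨ y = 0 ∨ z = 0)
    (h2 : ∀ x : ZMod q, x ^ p ≠ (p : ZMod q))
    {x y z : ℤ} (hxy : IsCoprime x y) (hyz : IsCoprime y z) (hzx : IsCoprime z x)
    (h : x ^ p + y ^ p + z ^ p = 0) : (p : ℤ) ∣ x * y * z := by
  by_contra hndvd
  have hpx : ¬ (p : ℤ) ∣ x := fun hd => hndvd (Dvd.dvd.mul_right (Dvd.dvd.mul_right hd y) z)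
  have hpy : ¬ (p : ℤ) ∣ y := fun hd => hndvd (Dvd.dvd.mul_right (Dvd.dvd.mul_left hd x) z)
  have hpz : ¬ (p : ℤ) ∣ z := fun hd => hndvd (Dvd.dvd.mul_left hd (x * y))
  have : Fact q.Prime := ⟨hq⟩
  have hmod : (x : ZMod q) ^ p + (y : ZMod q) ^ p + (z : ZMod q) ^ p = 0 := by
    exact_mod_cast congrArg (Int.cast : ℤ → ZMod q) h
  rcases h1 _ _ _ hmod with hx0 | hy0 | hz0
  · exact sg_case hp hodd hq h1 h2 hxy hyz hzx h hpx hpy hpz
      ((ZMod.intCast_zmod_eq_zero_iff_dvd _ _).mp hx0)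
  · exact sg_case hp hodd hq h1 h2 hyz hzx hxy (by linear_combination h) hpy hpz hpx
      ((ZMod.intCast_zmod_eq_zero_iff_dvd _ _).mp hy0)
  · exact sg_case hp hodd hq h1 h2 hzx hxy hyz (by linear_combination h) hpz hpx hpy
      ((ZMod.intCast_zmod_eq_zero_iff_dvd _ _).mp hz0)

/-- Version for `a ^ p + b ^ p = c ^ p` with only `IsCoprime a b` assumed. -/
theorem sophieGermain_generic' {p q : ℕ} (hp : p.Prime) (hodd : Odd p) (hq : q.Prime)
    (h1 : ∀ x y z : ZMod q, x ^ p + y ^ p + z ^ p = 0 → x = 0 ∨ y = 0 ∨ z = 0)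
    (h2 : ∀ x : ZMod q, x ^ p ≠ (p : ZMod q))
    (a b c : ℤ) (hab : IsCoprime a b) (h : a ^ p + b ^ p = c ^ p) : (p : ℤ) ∣ a * b * c := by
  have hp0 : 0 < p := hp.pos
  have hbc : IsCoprime b c := by
    rw [← IsCoprime.pow_right_iff hp0, ← h]
    have h3 : IsCoprime b (a ^ p) := (hab.symm).pow_right
    have h4 := h3.add_mul_left_right (b ^ (p - 1))
    rwa [mul_pow_sub_one hp0.ne'] at h4
  have hca : IsCoprime c a := by
    rw [← IsCoprime.pow_left_iff hp0, ← h]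
    have h3 : IsCoprime (b ^ p) a := (hab.symm).pow_left
    have h4 := h3.add_mul_left_left (a ^ (p - 1))
    rwa [mul_pow_sub_one hp0.ne', add_comm] at h4
  have h' : a ^ p + b ^ p + (-c) ^ p = 0 := by rw [hodd.neg_pow]; linear_combination h
  have := sophieGermain_generic hp hodd hq h1 h2 hab hbc.neg_right hca.neg_left h'
  rwa [mul_neg, dvd_neg] at this


/-! ### The numerical conditions for the four auxiliary primes -/

lemma sg_key_5_11 : ∀ x : ZMod 11, x = 0 ∨ x ^ 5 = 1 ∨ x ^ 5 = -1 := by decide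

lemma sg_key_11_23 : ∀ x : ZMod 23, x = 0 ∨ x ^ 11 = 1 ∨ x ^ 11 = -1 := by decide

lemma sg_key_7_29 :
    ∀ x : ZMod 29, x = 0 ∨ x ^ 7 = 1 ∨ x ^ 7 = -1 ∨ x ^ 7 = 12 ∨ x ^ 7 = -12 := by decide

lemma sg_key_13_53 :
    ∀ x : ZMod 53, x = 0 ∨ x ^ 13 = 1 ∨ x ^ 13 = -1 ∨ x ^ 13 = 23 ∨ x ^ 13 = -23 := by decide

lemma sg_h1_5_11 :
    ∀ x y z : ZMod 11, x ^ 5 + y ^ 5 + z ^ 5 = 0 → x = 0 ∨ y = 0 ∨ z = 0 := by
  intro x y z h
  rcases sg_key_5_11 x with hx | hx | hx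
  · exact Or.inl hx
  all_goals
    rcases sg_key_5_11 y with hy | hy | hy
    · exact Or.inr (Or.inl hy)
    all_goals
      rcases sg_key_5_11 z with hz | hz | hz
      · exact Or.inr (Or.inr hz)
      all_goals
        exfalso
        rw [hx, hy, hz] at h
        revert h
        decide

lemma sg_h1_11_23 :
    ∀ x y z : ZMod 23, x ^ 11 + y ^ 11 + z ^ 11 = 0 → x = 0 ∨ y = 0 ∨ z = 0 := by
  intro x y z h
  rcases sg_key_11_23 x with hx | hx | hx
  · exact Or.inl hx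
  all_goals
    rcases sg_key_11_23 y with hy | hy | hy
    · exact Or.inr (Or.inl hy)
    all_goals
      rcases sg_key_11_23 z with hz | hz | hz
      · exact Or.inr (Or.inr hz)
      all_goals
        exfalso
        rw [hx, hy, hz] at h
        revert h
        decide

lemma sg_h1_7_29 :
    ∀ x y z : ZMod 29, x ^ 7 + y ^ 7 + z ^ 7 = 0 → x = 0 ∨ y = 0 ∨ z = 0 := by
  intro x y z h
  rcases sg_key_7_29 x with hx | hx | hx | hx | hx
  · exact Or.inl hx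
  all_goals
    rcases sg_key_7_29 y with hy | hy | hy | hy | hy
    · exact Or.inr (Or.inl hy)
    all_goals
      rcases sg_key_7_29 z with hz | hz | hz | hz | hz
      · exact Or.inr (Or.inr hz)
      all_goals
        exfalso
        rw [hx, hy, hz] at h
        revert h
        decide

lemma sg_h1_13_53 :
    ∀ x y z : ZMod 53, x ^ 13 + y ^ 13 + z ^ 13 = 0 → x = 0 ∨ y = 0 ∨ z = 0 := by
  intro x y z h
  rcases sg_key_13_53 x with hx | hx | hx | hx | hx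
  · exact Or.inl hx
  all_goals
    rcases sg_key_13_53 y with hy | hy | hy | hy | hy
    · exact Or.inr (Or.inl hy)
    all_goals
      rcases sg_key_13_53 z with hz | hz | hz | hz | hz
      · exact Or.inr (Or.inr hz)
      all_goals
        exfalso
        rw [hx, hy, hz] at h
        revert h
        decide

lemma sg_h2_5_11 : ∀ x : ZMod 11, x ^ 5 ≠ ((5 : ℕ) : ZMod 11) := by decide

lemma sg_h2_11_23 : ∀ x : ZMod 23, x ^ 11 ≠ ((11 : ℕ) : ZMod 23) := by decide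

lemma sg_h2_7_29 : ∀ x : ZMod 29, x ^ 7 ≠ ((7 : ℕ) : ZMod 29) := by decide

lemma sg_h2_13_53 : ∀ x : ZMod 53, x ^ 13 ≠ ((13 : ℕ) : ZMod 53) := by decide

/-! ### Case I for the exponents 5, 7, 11, 13 -/

/-- Case I of Fermat's Last Theorem for exponent `5`: in a primitive solution, `5 ∣ a * b * c`. -/
theorem caseI_five (a b c : ℤ) (hab : IsCoprime a b) (h : a ^ 5 + b ^ 5 = c ^ 5) :
    (5 : ℤ) ∣ a * b * c :=
  sophieGermain_generic' (p := 5) (q := 11) (by norm_num) (by decide) (by norm_num)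
    sg_h1_5_11 sg_h2_5_11 a b c hab h

/-- Case I of Fermat's Last Theorem for exponent `7`: in a primitive solution, `7 ∣ a * b * c`. -/
theorem caseI_seven (a b c : ℤ) (hab : IsCoprime a b) (h : a ^ 7 + b ^ 7 = c ^ 7) :
    (7 : ℤ) ∣ a * b * c :=
  sophieGermain_generic' (p := 7) (q := 29) (by norm_num) (by decide) (by norm_num)
    sg_h1_7_29 sg_h2_7_29 a b c hab h

/-- Case I of Fermat's Last Theorem for exponent `11`: in a primitive solution,
`11 ∣ a * b * c`. -/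
theorem caseI_eleven (a b c : ℤ) (hab : IsCoprime a b) (h : a ^ 11 + b ^ 11 = c ^ 11) :
    (11 : ℤ) ∣ a * b * c :=
  sophieGermain_generic' (p := 11) (q := 23) (by norm_num) (by decide) (by norm_num)
    sg_h1_11_23 sg_h2_11_23 a b c hab h

/-- Case I of Fermat's Last Theorem for exponent `13`: in a primitive solution,
`13 ∣ a * b * c`. -/
theorem caseI_thirteen (a b c : ℤ) (hab : IsCoprime a b) (h : a ^ 13 + b ^ 13 = c ^ 13) :
    (13 : ℤ) ∣ a * b * c :=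
  sophieGermain_generic' (p := 13) (q := 53) (by norm_num) (by decide) (by norm_num)
    sg_h1_13_53 sg_h2_13_53 a b c hab h

end Fermat.Agent.Kummer
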