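import Mathlib

/-!
# Kummer's descent for the second case of Fermat's Last Theorem (abstract core)

We work in an abstract principal ideal domain `R` containing a primitive `p`-th root of unity `η`
(`p` an odd prime) such that `η - 1` is prime, `p` is associated to `(η - 1) ^ (p - 1)`, every
element is congruent to a rational integer modulo `η - 1`, and Kummer's lemma holds (a unit
congruent to a rational integer modulo `p` is a `p`-th power).  Under these hypotheses the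
generalised Fermat equation `x ^ p + y ^ p = ε * z ^ p` has no solution with `(η - 1) ∣ z`,
`z ≠ 0`, `¬ (η - 1) ∣ x`, `¬ (η - 1) ∣ y` and `x`, `y` coprime.
-/

namespace Fermat.Agent.Kummer

open Finset Polynomial

/-- The abstract hypotheses under which Kummer's descent works. -/
structure CaseIIRing (p : ℕ) {R : Type*} [CommRing R] [IsDomain R] (η : R) : Prop where
  prime : p.Prime
  odd : p ≠ 2
  root : IsPrimitiveRoot η p
  lam_prime : Prime (η - 1)
  p_assoc : Associated (p : R) ((η - 1) ^ (p - 1))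
  residue : ∀ x : R, ∃ n : ℤ, (η - 1) ∣ x - n
  kummer : ∀ u : Rˣ, (∃ n : ℤ, (p : R) ∣ (u : R) - n) → ∃ v : Rˣ, u = v ^ p

namespace CaseIIRing

variable {p : ℕ} {R : Type*} [CommRing R] [IsDomain R] {η : R}

lemma three_le (h : CaseIIRing p η) : 3 ≤ p := by
  have h2 := h.prime.two_le
  have := h.odd
  omega

lemma lam_dvd_p (h : CaseIIRing p η) : (η - 1) ∣ (p : R) := by
  have h3 := h.three_le
  refine dvd_trans ?_ h.p_assoc.symm.dvd
  exact dvd_pow_self _ (by omega)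

lemma p_dvd_lam_pow (h : CaseIIRing p η) {k : ℕ} (hk : p - 1 ≤ k) : (p : R) ∣ (η - 1) ^ k :=
  dvd_trans h.p_assoc.dvd (pow_dvd_pow _ hk)

lemma lam_dvd_intCast (h : CaseIIRing p η) {n : ℤ} (hn : (p : ℤ) ∣ n) : (η - 1) ∣ (n : R) := by
  obtain ⟨m, rfl⟩ := hn
  push_cast
  exact Dvd.dvd.mul_right h.lam_dvd_p _

lemma dvd_of_lam_dvd_intCast (h : CaseIIRing p η) {n : ℤ} (hn : (η - 1) ∣ (n : R)) :
    (p : ℤ) ∣ n := by
  by_contra hpn
  have hcop : IsCoprime (p : ℤ) n :=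
    (Nat.prime_iff_prime_int.mp h.prime).coprime_iff_not_dvd.mpr hpn
  obtain ⟨a, b, hab⟩ := hcop
  have h1 : (η - 1) ∣ ((a * p + b * n : ℤ) : R) := by
    push_cast
    exact dvd_add (Dvd.dvd.mul_left h.lam_dvd_p _) (Dvd.dvd.mul_left hn _)
  rw [hab] at h1
  exact h.lam_prime.not_isUnit (isUnit_of_dvd_one (by simpa using h1))

/-- `α ^ p` is congruent to a rational integer modulo `p`. -/
lemma exists_int_pow_congr (h : CaseIIRing p η) (α : R) :
    ∃ n : ℤ, (p : R) ∣ α ^ p - n := by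
  obtain ⟨n, β, hβ⟩ := h.residue α
  refine ⟨n ^ p, ?_⟩
  have hα : α = (η - 1) * β + n := by rw [← hβ]; ring
  have h3 := h.three_le
  have key := h.prime.dvd_add_pow_sub_pow_of_dvd ((η - 1) * β) (n : R) (r := (p : R)) ?_ ?_
  · rw [hα]; push_cast; exact key
  · rw [mul_pow]
    exact Dvd.dvd.mul_right (h.p_dvd_lam_pow (by omega)) _
  · exact Dvd.intro _ rfl

/-- The residue of an element of `R` modulo `η - 1`, as an element of `ZMod p`. -/
noncomputable def res (h : CaseIIRing p η) (x : R) : ZMod p :=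
  ((h.residue x).choose : ZMod p)

lemma res_spec (h : CaseIIRing p η) (x : R) : (η - 1) ∣ x - ((h.residue x).choose : ℤ) :=
  (h.residue x).choose_spec

lemma res_eq_iff (h : CaseIIRing p η) (x y : R) : h.res x = h.res y ↔ (η - 1) ∣ x - y := by
  have hx := h.res_spec x
  have hy := h.res_spec y
  set n := (h.residue x).choose
  set m := (h.residue y).choose
  have hnm : h.res x = h.res y ↔ (p : ℤ) ∣ n - m := by
    unfold res
    rw [← sub_eq_zero, ← Int.cast_sub, ZMod.intCast_zmod_eq_zero_iff_dvd]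
  rw [hnm]
  constructor
  · intro hd
    have h1 : (η - 1) ∣ ((n - m : ℤ) : R) := h.lam_dvd_intCast hd
    have : x - y = (x - n) - (y - m) + ((n - m : ℤ) : R) := by push_cast; ring
    rw [this]
    exact dvd_add (dvd_sub hx hy) h1
  · intro hd
    apply h.dvd_of_lam_dvd_intCast
    have : ((n - m : ℤ) : R) = (x - y) - ((x - n) - (y - m)) := by push_cast; ring
    rw [this]
    exact dvd_sub hd (dvd_sub hx hy)

lemma res_eq_zero_iff (h : CaseIIRing p η) (x : R) : h.res x = 0 ↔ (η - 1) ∣ x := by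
  have hx := h.res_spec x
  set n := (h.residue x).choose
  have hn : h.res x = 0 ↔ (p : ℤ) ∣ n := by
    unfold res
    rw [ZMod.intCast_zmod_eq_zero_iff_dvd]
  rw [hn]
  constructor
  · intro hd
    have := dvd_add hx (h.lam_dvd_intCast hd)
    simpa using this
  · intro hd
    apply h.dvd_of_lam_dvd_intCast
    have : (n : R) = x - (x - n) := by ring
    rw [this]
    exact dvd_sub hd hx

/-- Two distinct `p`-th roots of unity differ by an associate of `η - 1`. -/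
lemma associated_sub (h : CaseIIRing p η) {μ ν : R} (hμ : μ ∈ nthRootsFinset p (1 : R))
    (hν : ν ∈ nthRootsFinset p (1 : R)) (hne : μ ≠ ν) : Associated (η - 1) (μ - ν) :=
  h.root.nthRootsFinset_pairwise_associated_sub_one_sub_of_prime h.prime hμ hν hne

lemma lam_dvd_sub (h : CaseIIRing p η) {μ ν : R} (hμ : μ ∈ nthRootsFinset p (1 : R))
    (hν : ν ∈ nthRootsFinset p (1 : R)) : (η - 1) ∣ μ - ν := by
  by_cases hne : μ = ν
  · simp [hne]
  · exact (h.associated_sub hμ hν hne).dvd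

lemma one_mem (h : CaseIIRing p η) : (1 : R) ∈ nthRootsFinset p (1 : R) := by
  rw [mem_nthRootsFinset h.prime.pos]; simp

lemma eta_mem (h : CaseIIRing p η) : η ∈ nthRootsFinset p (1 : R) := by
  rw [mem_nthRootsFinset h.prime.pos]; exact h.root.pow_eq_one

lemma eta_sq_mem (h : CaseIIRing p η) : η ^ 2 ∈ nthRootsFinset p (1 : R) := by
  rw [mem_nthRootsFinset h.prime.pos, ← pow_mul, mul_comm, pow_mul, h.root.pow_eq_one, one_pow]

lemma eta_ne_one (h : CaseIIRing p η) : η ≠ 1 :=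
  h.root.ne_one h.prime.one_lt

lemma eta_sq_ne_one (h : CaseIIRing p η) : η ^ 2 ≠ 1 := by
  intro h2
  have := h.root.dvd_of_pow_eq_one 2 h2
  have h3 := h.three_le
  have := Nat.le_of_dvd (by norm_num) this
  omega

lemma eta_sq_ne_eta (h : CaseIIRing p η) : η ^ 2 ≠ η := by
  intro h2
  apply h.eta_ne_one
  have h0 : η ≠ 0 := h.root.ne_zero h.prime.ne_zero
  have : η * η = η * 1 := by rw [mul_one, ← sq, h2]
  exact mul_left_cancel₀ h0 this

lemma card_roots (h : CaseIIRing p η) : #(nthRootsFinset p (1 : R)) = p :=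
  h.root.card_nthRootsFinset

lemma pow_add_pow_eq_prod (h : CaseIIRing p η) (x y : R) :
    x ^ p + y ^ p = ∏ μ ∈ nthRootsFinset p (1 : R), (x + μ * y) :=
  h.root.pow_add_pow_eq_prod_add_mul x y (h.prime.odd_of_ne_two h.odd)

/-- If `η - 1` divides `x ^ p + y ^ p` then it divides every factor `x + μ * y`. -/
lemma lam_dvd_factor (h : CaseIIRing p η) {x y : R} (hxy : (η - 1) ∣ x ^ p + y ^ p)
    {μ : R} (hμ : μ ∈ nthRootsFinset p (1 : R)) : (η - 1) ∣ x + μ * y := by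
  rw [h.pow_add_pow_eq_prod, h.lam_prime.dvd_finsetProd_iff] at hxy
  obtain ⟨ν, hν, hd⟩ := hxy
  have : x + μ * y = (x + ν * y) + (μ - ν) * y := by ring
  rw [this]
  exact dvd_add hd (Dvd.dvd.mul_right (h.lam_dvd_sub hμ hν) _)

/-- Pigeonhole: some factor `x + μ * y` is divisible by `(η - 1) ^ 2`. -/
lemma exists_sq_dvd_factor (h : CaseIIRing p η) {x y : R} (hy : ¬ (η - 1) ∣ y)
    (hxy : (η - 1) ∣ x ^ p + y ^ p) :
    ∃ μ ∈ nthRootsFinset p (1 : R), (η - 1) ^ 2 ∣ x + μ * y := by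
  classical
  have hfac : ∀ μ ∈ nthRootsFinset p (1 : R), ∃ g, x + μ * y = (η - 1) * g :=
    fun μ hμ => h.lam_dvd_factor hxy hμ
  choose! G hG using hfac
  by_contra hcon
  push Not at hcon
  have : NeZero p := ⟨h.prime.ne_zero⟩
  have : Fact p.Prime := ⟨h.prime⟩
  have hmaps : ∀ μ ∈ nthRootsFinset p (1 : R),
      h.res (G μ) ∈ (Finset.univ : Finset (ZMod p)).erase 0 := by
    intro μ hμ
    rw [Finset.mem_erase]
    refine ⟨?_, Finset.mem_univ _⟩
    intro h0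
    rw [h.res_eq_zero_iff] at h0
    apply hcon μ hμ
    rw [hG μ hμ, sq]
    exact mul_dvd_mul_left _ h0
  have hcard : #((Finset.univ : Finset (ZMod p)).erase 0) < #(nthRootsFinset p (1 : R)) := by
    rw [Finset.card_erase_of_mem (Finset.mem_univ _), Finset.card_univ, ZMod.card, h.card_roots]
    have := h.prime.pos
    omega
  obtain ⟨μ, hμ, ν, hν, hne, heq⟩ := Finset.exists_ne_map_eq_of_card_lt_of_maps_to hcard hmaps
  rw [h.res_eq_iff] at heq
  obtain ⟨u, hu⟩ := h.associated_sub hμ hν hne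
  obtain ⟨c, hc⟩ := heq
  apply hy
  have h1 : (η - 1) * ((G μ - G ν)) = (η - 1) * (u * y) := by
    have e1 := hG μ hμ
    have e2 := hG ν hν
    have : (η - 1) * (G μ - G ν) = (x + μ * y) - (x + ν * y) := by rw [e1, e2]; ring
    rw [this, ← mul_assoc, hu]; ring
  have h2 : G μ - G ν = u * y := mul_left_cancel₀ h.lam_prime.ne_zero h1
  rw [hc] at h2
  have h3 : (η - 1) ∣ (u : R) * y := ⟨c, h2.symm⟩
  exact Units.dvd_mul_left.mp h3

lemma isUnit_one_add_eta (h : CaseIIRing p η) : IsUnit (1 + η) := by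
  have h3 := h.three_le
  have hcop : (2 : ℕ).Coprime p := by
    rw [Nat.coprime_comm]
    exact (Nat.coprime_primes h.prime Nat.prime_two).mpr h.odd
  have := h.root.geom_sum_isUnit h.prime.two_le hcop
  simpa [Finset.sum_range_succ] using this

lemma isUnit_eta (h : CaseIIRing p η) : IsUnit η :=
  h.root.isUnit h.prime.ne_zero

lemma isUnit_of_mem_roots (h : CaseIIRing p η) {μ : R} (hμ : μ ∈ nthRootsFinset p (1 : R)) :
    IsUnit μ := by
  rw [mem_nthRootsFinset h.prime.pos] at hμ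
  exact IsUnit.of_pow_eq_one hμ h.prime.ne_zero

/-- One step of the descent, under the normalisation `(η - 1) ^ 2 ∣ x + y`. -/
lemma descent_step (h : CaseIIRing p η) [IsPrincipalIdealRing R] {x y z : R} {ε : Rˣ}
    (hz : z ≠ 0) (hzd : (η - 1) ∣ z) (hy : ¬ (η - 1) ∣ y)
    (hcop : IsCoprime x y) (heq : x ^ p + y ^ p = ε * z ^ p) (hsq : (η - 1) ^ 2 ∣ x + y) :
    ∃ (x' y' z' : R) (ε' : Rˣ), DvdNotUnit z' z ∧ z' ≠ 0 ∧ (η - 1) ∣ z' ∧ ¬ (η - 1) ∣ x' ∧
      ¬ (η - 1) ∣ y' ∧ IsCoprime x' y' ∧ x' ^ p + y' ^ p = ε' * z' ^ p := by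
  classical
  have hp0 : p ≠ 0 := h.prime.ne_zero
  have hl0 : (η - 1) ≠ 0 := h.lam_prime.ne_zero
  have hxy : (η - 1) ∣ x ^ p + y ^ p := by
    rw [heq]
    exact Dvd.dvd.mul_left (dvd_pow hzd hp0) _
  have hfac : ∀ μ ∈ nthRootsFinset p (1 : R), ∃ g, x + μ * y = (η - 1) * g :=
    fun μ hμ => h.lam_dvd_factor hxy hμ
  choose! G hG using hfac
  -- `G 1` is divisible by `η - 1`
  have hG1 : (η - 1) ∣ G 1 := by
    obtain ⟨c, hc⟩ := hsq
    have e1 := hG 1 h.one_mem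
    rw [one_mul, hc, sq, mul_assoc] at e1
    exact ⟨c, (mul_left_cancel₀ hl0 e1).symm⟩
  -- the other `G μ` are not
  have hGne : ∀ μ ∈ nthRootsFinset p (1 : R), μ ≠ 1 → ¬ (η - 1) ∣ G μ := by
    intro μ hμ hμ1 hd
    obtain ⟨u, hu⟩ := h.associated_sub hμ h.one_mem hμ1
    obtain ⟨c, hc⟩ := hd
    obtain ⟨c1, hc1⟩ := hG1
    apply hy
    have e1 := hG 1 h.one_mem
    have e2 := hG μ hμ
    have h1 : (η - 1) * (u * y) = (η - 1) * ((η - 1) * (c - c1)) := by
      have : (η - 1) * (u * y) = (x + μ * y) - (x + 1 * y) := by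
        rw [← mul_assoc, hu]; ring
      rw [this, e1, e2, hc, hc1]; ring
    have h2 : (u : R) * y = (η - 1) * (c - c1) := mul_left_cancel₀ hl0 h1
    have h3 : (η - 1) ∣ (u : R) * y := ⟨_, h2⟩
    exact Units.dvd_mul_left.mp h3
  -- pairwise coprimality
  have hcopG : ∀ μ ∈ nthRootsFinset p (1 : R), ∀ ν ∈ nthRootsFinset p (1 : R), μ ≠ ν →
      IsCoprime (G μ) (G ν) := by
    intro μ hμ ν hν hne
    have hnz : ¬ (G μ = 0 ∧ G ν = 0) := by
      rintro ⟨h1, h2⟩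
      by_cases hμ1 : μ = 1
      · have hν1 : ν ≠ 1 := fun hh => hne (hμ1.trans hh.symm)
        exact hGne ν hν hν1 (h2 ▸ dvd_zero _)
      · exact hGne μ hμ hμ1 (h1 ▸ dvd_zero _)
    refine isCoprime_of_prime_dvd hnz ?_
    intro π hπ hπμ hπν
    obtain ⟨u, hu⟩ := h.associated_sub hμ hν hne
    have e1 := hG μ hμ
    have e2 := hG ν hν
    have hd1 : π ∣ (η - 1) * (u * y) := by
      have : (η - 1) * (u * y) = (η - 1) * G μ - (η - 1) * G ν := by
        rw [← e1, ← e2, ← mul_assoc, hu]; ring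
      rw [this]
      exact dvd_sub (Dvd.dvd.mul_left hπμ _) (Dvd.dvd.mul_left hπν _)
    have hd2 : π ∣ (η - 1) * (u * x) := by
      have : (η - 1) * (u * x) = μ * ((η - 1) * G ν) - ν * ((η - 1) * G μ) := by
        rw [← e1, ← e2, ← mul_assoc, hu]; ring
      rw [this]
      exact dvd_sub (Dvd.dvd.mul_left (Dvd.dvd.mul_left hπν _) _)
        (Dvd.dvd.mul_left (Dvd.dvd.mul_left hπμ _) _)
    by_cases hπl : π ∣ (η - 1)
    · have hass : Associated π (η - 1) := hπ.associated_of_dvd h.lam_prime hπl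
      by_cases hμ1 : μ = 1
      · have hν1 : ν ≠ 1 := fun hh => hne (hμ1.trans hh.symm)
        exact hGne ν hν hν1 (hass.symm.dvd.trans hπν)
      · exact hGne μ hμ hμ1 (hass.symm.dvd.trans hπμ)
    · have hy' : π ∣ y := by
        rcases hπ.dvd_or_dvd hd1 with h1 | h1
        · exact absurd h1 hπl
        · exact Units.dvd_mul_left.mp h1
      have hx' : π ∣ x := by
        rcases hπ.dvd_or_dvd hd2 with h1 | h1
        · exact absurd h1 hπl
        · exact Units.dvd_mul_left.mp h1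
      exact hπ.not_isUnit (hcop.isUnit_of_dvd' hx' hy')
  -- the product formula
  obtain ⟨z₁, hz₁⟩ := hzd
  have hz₁0 : z₁ ≠ 0 := by
    rintro rfl
    exact hz (by rw [hz₁, mul_zero])
  have hprod : ∏ μ ∈ nthRootsFinset p (1 : R), G μ = ε * z₁ ^ p := by
    have e1 : ∏ μ ∈ nthRootsFinset p (1 : R), (x + μ * y) =
        (η - 1) ^ p * ∏ μ ∈ nthRootsFinset p (1 : R), G μ := by
      rw [Finset.prod_congr rfl hG, Finset.prod_mul_distrib, Finset.prod_const, h.card_roots]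
    have e2 : (η - 1) ^ p * ∏ μ ∈ nthRootsFinset p (1 : R), G μ = (η - 1) ^ p * (ε * z₁ ^ p) := by
      rw [← e1, ← h.pow_add_pow_eq_prod, heq, hz₁, mul_pow]; ring
    exact mul_left_cancel₀ (pow_ne_zero _ hl0) e2
  have hGnz : ∀ μ ∈ nthRootsFinset p (1 : R), G μ ≠ 0 := by
    intro μ hμ h0
    have : ∏ μ ∈ nthRootsFinset p (1 : R), G μ = 0 := Finset.prod_eq_zero hμ h0
    rw [hprod] at this
    exact (mul_ne_zero ε.ne_zero (pow_ne_zero _ hz₁0)) this
  -- each `G μ` is associated to a `p`-th power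
  have hpow : ∀ μ ∈ nthRootsFinset p (1 : R), ∃ d : R, Associated (d ^ p) (G μ) := by
    intro μ hμ
    have hc : IsCoprime (G μ) (∏ ν ∈ (nthRootsFinset p (1 : R)).erase μ, G ν) := by
      refine IsCoprime.prod_right ?_
      intro ν hν
      rw [Finset.mem_erase] at hν
      exact hcopG μ hμ ν hν.2 (Ne.symm hν.1)
    have hmul : G μ * ∏ ν ∈ (nthRootsFinset p (1 : R)).erase μ, G ν = ε * z₁ ^ p := by
      rw [Finset.mul_prod_erase _ _ hμ, hprod]
    refine exists_associated_pow_of_associated_pow_mul (c := z₁) hc ?_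
    rw [hmul]
    exact ⟨ε, by ring⟩
  obtain ⟨ρ₀, e₀, hρ₀⟩ := hpow 1 h.one_mem
  obtain ⟨ρ₁, e₁, hρ₁⟩ := hpow η h.eta_mem
  obtain ⟨ρ₂, e₂, hρ₂⟩ := hpow (η ^ 2) h.eta_sq_mem
  -- divisibility facts on the `ρ`'s
  have hρ₀d : (η - 1) ∣ ρ₀ := by
    have : (η - 1) ∣ ρ₀ ^ p * e₀ := hρ₀ ▸ hG1
    exact h.lam_prime.dvd_of_dvd_pow ((Units.dvd_mul_right).mp this)
  have hρ₁d : ¬ (η - 1) ∣ ρ₁ := by
    intro hd
    apply hGne η h.eta_mem h.eta_ne_one
    rw [← hρ₁]
    exact Dvd.dvd.mul_right (dvd_pow hd hp0) _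
  have hρ₂d : ¬ (η - 1) ∣ ρ₂ := by
    intro hd
    apply hGne (η ^ 2) h.eta_sq_mem h.eta_sq_ne_one
    rw [← hρ₂]
    exact Dvd.dvd.mul_right (dvd_pow hd hp0) _
  have hρ₀0 : ρ₀ ≠ 0 := by
    rintro rfl
    apply hGnz 1 h.one_mem
    rw [← hρ₀, zero_pow hp0, zero_mul]
  -- the linear relation
  have hrel : G η * (1 + η) - G (η ^ 2) = η * G 1 := by
    apply mul_left_cancel₀ hl0
    have e0 := hG 1 h.one_mem
    have e1 := hG η h.eta_mem
    have e2 := hG (η ^ 2) h.eta_sq_mem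
    calc (η - 1) * (G η * (1 + η) - G (η ^ 2))
        = ((η - 1) * G η) * (1 + η) - (η - 1) * G (η ^ 2) := by ring
      _ = (x + η * y) * (1 + η) - (x + η ^ 2 * y) := by rw [e1, e2]
      _ = η * (x + 1 * y) := by ring
      _ = (η - 1) * (η * G 1) := by rw [e0]; ring
  obtain ⟨w, hw⟩ := h.isUnit_one_add_eta
  obtain ⟨ηu, hηu⟩ := h.isUnit_eta
  set u : Rˣ := e₂ * (e₁ * w)⁻¹ with hu_def
  set u' : Rˣ := ηu * e₀ * (e₁ * w)⁻¹ with hu'_def
  have hmain : ρ₁ ^ p - u * ρ₂ ^ p = u' * ρ₀ ^ p := by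
    have hrel' : ρ₁ ^ p * e₁ * w - ρ₂ ^ p * e₂ = ηu * (ρ₀ ^ p * e₀) := by
      rw [hρ₀, hρ₁, hρ₂, hw, hηu]; exact hrel
    have hunit : ((e₁ * w : Rˣ) : R) * (((e₁ * w)⁻¹ : Rˣ) : R) = 1 := by
      rw [← Units.val_mul, mul_inv_cancel, Units.val_one]
    have hunit' : ((e₁ : R) * (w : R)) * (((e₁ * w)⁻¹ : Rˣ) : R) = 1 := by
      rw [← Units.val_mul]; exact hunit
    calc ρ₁ ^ p - u * ρ₂ ^ p
        = ρ₁ ^ p * (((e₁ : R) * (w : R)) * (((e₁ * w)⁻¹ : Rˣ) : R))
            - (e₂ : R) * (((e₁ * w)⁻¹ : Rˣ) : R) * ρ₂ ^ p := by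
          rw [hunit', mul_one, hu_def, Units.val_mul]
      _ = (ρ₁ ^ p * e₁ * w - ρ₂ ^ p * e₂) * (((e₁ * w)⁻¹ : Rˣ) : R) := by ring
      _ = (ηu * (ρ₀ ^ p * e₀)) * (((e₁ * w)⁻¹ : Rˣ) : R) := by rw [hrel']
      _ = u' * ρ₀ ^ p := by
          rw [hu'_def, Units.val_mul, Units.val_mul]; ring
  -- `u` is congruent to an integer modulo `p`
  have hpρ₀ : (p : R) ∣ ρ₀ ^ p := by
    have h3 := h.three_le
    exact dvd_trans (h.p_dvd_lam_pow (k := p) (by omega)) (pow_dvd_pow_of_dvd hρ₀d p)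
  obtain ⟨a, ha⟩ := h.exists_int_pow_congr ρ₁
  obtain ⟨b, hb⟩ := h.exists_int_pow_congr ρ₂
  have hpb : ¬ (p : ℤ) ∣ b := by
    intro hd
    apply hρ₂d
    apply h.lam_prime.dvd_of_dvd_pow (n := p)
    have h1 : (η - 1) ∣ (b : R) := h.lam_dvd_intCast hd
    have h2 : (η - 1) ∣ ρ₂ ^ p - b := dvd_trans h.lam_dvd_p hb
    have : ρ₂ ^ p = (ρ₂ ^ p - b) + b := by ring
    rw [this]
    exact dvd_add h2 h1
  have hcopb : IsCoprime (p : ℤ) b :=
    (Nat.prime_iff_prime_int.mp h.prime).coprime_iff_not_dvd.mpr hpb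
  obtain ⟨c, b', hcb⟩ := hcopb
  have hucong : ∃ n : ℤ, (p : R) ∣ (u : R) - n := by
    refine ⟨a * b', ?_⟩
    have hd1 : (p : R) ∣ ρ₁ ^ p - u * ρ₂ ^ p := by
      rw [hmain]; exact Dvd.dvd.mul_left hpρ₀ _
    have hcb' : (c : R) * p + b' * b = 1 := by exact_mod_cast congrArg (Int.cast : ℤ → R) hcb
    have key : (u : R) - ((a * b' : ℤ) : R) =
        (u : R) * c * p + b' * ((u : R) * (b - ρ₂ ^ p) - (ρ₁ ^ p - u * ρ₂ ^ p) + (ρ₁ ^ p - a)) := by
      push_cast
      have : (u : R) = (u : R) * ((c : R) * p + b' * b) := by rw [hcb', mul_one]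
      nth_rewrite 1 [this]
      ring
    rw [key]
    refine dvd_add (Dvd.intro_left _ rfl) (Dvd.dvd.mul_left ?_ _)
    refine dvd_add (dvd_sub (Dvd.dvd.mul_left ?_ _) hd1) ha
    rw [← dvd_neg, neg_sub]
    exact hb
  obtain ⟨v, hv⟩ := h.kummer u hucong
  have hodd : Odd p := h.prime.odd_of_ne_two h.odd
  refine ⟨ρ₁, -(v * ρ₂), ρ₀, u', ?_, hρ₀0, hρ₀d, hρ₁d, ?_, ?_, ?_⟩
  · -- `ρ₀` is a proper divisor of `z`
    refine ⟨hρ₀0, ?_⟩
    have hd : ρ₀ ^ p ∣ z₁ ^ p := by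
      have h1 : ρ₀ ^ p ∣ G 1 := Dvd.intro _ hρ₀
      have h2 : G 1 ∣ ∏ μ ∈ nthRootsFinset p (1 : R), G μ := Finset.dvd_prod_of_mem _ h.one_mem
      rw [hprod] at h2
      exact Units.dvd_mul_left.mp (h1.trans h2)
    have hd' : ρ₀ ∣ z₁ := (UniqueFactorizationMonoid.pow_dvd_pow_iff_dvd hp0).mp hd
    obtain ⟨s, hs⟩ := hd'
    refine ⟨(η - 1) * s, ?_, ?_⟩
    · intro hunit
      exact h.lam_prime.not_isUnit (isUnit_of_mul_isUnit_left hunit)
    · rw [hz₁, hs]; ring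
  · rw [dvd_neg]
    intro hd
    exact hρ₂d (Units.dvd_mul_left.mp hd)
  · have h1 : IsCoprime (G η) (G (η ^ 2)) :=
      hcopG η h.eta_mem (η ^ 2) h.eta_sq_mem (Ne.symm h.eta_sq_ne_eta)
    rw [← hρ₁, ← hρ₂] at h1
    have h2 : IsCoprime (ρ₁ ^ p) (ρ₂ ^ p) :=
      (h1.of_mul_left_left).of_mul_right_left
    have h3 : IsCoprime ρ₁ ρ₂ := (IsCoprime.pow_iff h.prime.pos h.prime.pos).mp h2
    exact ((isCoprime_mul_unit_left_right v.isUnit _ _).mpr h3).neg_right
  · rw [hodd.neg_pow, mul_pow, ← Units.val_pow_eq_pow_val, ← hv, ← sub_eq_add_neg]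
    exact hmain

/-- **Kummer's descent**: the generalised Fermat equation has no solution in the second case. -/
theorem no_solution (h : CaseIIRing p η) [IsPrincipalIdealRing R] :
    ∀ z : R, z ≠ 0 → (η - 1) ∣ z → ∀ (x y : R) (ε : Rˣ), ¬ (η - 1) ∣ y →
      IsCoprime x y → x ^ p + y ^ p ≠ ε * z ^ p := by
  intro z
  induction z using (wellFounded_dvdNotUnit (α := R)).induction with
  | _ z IH =>
    intro hz hzd x y ε hy hcop heq
    have hp0 : p ≠ 0 := h.prime.ne_zero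
    have hxy : (η - 1) ∣ x ^ p + y ^ p := by
      rw [heq]
      exact Dvd.dvd.mul_left (dvd_pow hzd hp0) _
    obtain ⟨μ, hμ, hsq⟩ := h.exists_sq_dvd_factor hy hxy
    have hμu : IsUnit μ := h.isUnit_of_mem_roots hμ
    have hμp : μ ^ p = 1 := (mem_nthRootsFinset h.prime.pos 1).mp hμ
    have hy' : ¬ (η - 1) ∣ μ * y := fun hd => hy ((hμu.dvd_mul_left).mp hd)
    have hcop' : IsCoprime x (μ * y) := (isCoprime_mul_unit_left_right hμu _ _).mpr hcop
    have heq' : x ^ p + (μ * y) ^ p = ε * z ^ p := by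
      rw [mul_pow, hμp, one_mul, heq]
    obtain ⟨x', y', z', ε', hlt, hz', hzd', -, hy'', hcop'', heq''⟩ :=
      h.descent_step hz hzd hy' hcop' heq' hsq
    exact IH z' hlt hz' hzd' x' y' ε' hy'' hcop'' heq''

end CaseIIRing

end Fermat.Agent.Kummer
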