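import Mathlib

/-!
# Kummer route: shared definitions

`KummerLemmaFor p K`: every unit of `𝓞 K` that is congruent to a rational integer modulo `p`
is a `p`-th power of a unit.
-/

set_option autoImplicit false

open NumberField

namespace Fermat.Agent.Kummer

/-- Kummer's lemma for the prime `p` in the number field `K`. -/
def KummerLemmaFor (p : ℕ) (K : Type*) [Field K] [NumberField K] : Prop :=
  ∀ u : (𝓞 K)ˣ, (∃ n : ℤ, (p : 𝓞 K) ∣ (u : 𝓞 K) - (n : 𝓞 K)) → ∃ v : (𝓞 K)ˣ, u = v ^ p

end Fermat.Agent.Kummer
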