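import Mathlib
import Fermat.Agent.Lib.Kummer.Defs
import Fermat.Agent.Lib.Kummer.CaseIICore

/-!
# Second case of Fermat's Last Theorem for a prime `p` with `𝓞 (ℚ(ζ_p))` principal and
Kummer's lemma

`caseII`: if `p` is an odd prime, the ring of integers of the `p`-th cyclotomic field is a
principal ideal ring and Kummer's lemma holds for `p`, then `a ^ p + b ^ p ≠ c ^ p` for all coprime
integers `a`, `b` and all nonzero integers `c` divisible by `p`.
-/

set_option autoImplicit false

open NumberField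

namespace Fermat.Agent.Kummer

section

variable {p : ℕ} [hp : Fact p.Prime] {K : Type*} [Field K] [NumberField K]
  [IsCyclotomicExtension {p} ℚ K] {ζ : K} (hζ : IsPrimitiveRoot ζ p)

include hζ in
/-- Every element of `𝓞 K` is congruent to a rational integer modulo `ζ - 1`. -/
lemma exists_int_sub_dvd_toInteger (x : 𝓞 K) : ∃ n : ℤ, (hζ.toInteger - 1) ∣ x - n := by
  have htop : Algebra.adjoin ℤ {hζ.toInteger} = ⊤ := by
    have := hζ.integralPowerBasis.adjoin_gen_eq_top
    rwa [hζ.integralPowerBasis_gen] at this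
  have hx : x ∈ Algebra.adjoin ℤ {hζ.toInteger} := by rw [htop]; trivial
  induction hx using Algebra.adjoin_induction with
  | mem y hy =>
    rw [Set.mem_singleton_iff] at hy
    exact ⟨1, by rw [hy]; simp⟩
  | algebraMap r =>
    exact ⟨r, by simp⟩
  | add y z _ _ hy hz =>
    obtain ⟨n, hn⟩ := hy
    obtain ⟨m, hm⟩ := hz
    refine ⟨n + m, ?_⟩
    have : y + z - ((n + m : ℤ) : 𝓞 K) = (y - n) + (z - m) := by push_cast; ring
    rw [this]
    exact dvd_add hn hm
  | mul y z _ _ hy hz =>
    obtain ⟨n, hn⟩ := hy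
    obtain ⟨m, hm⟩ := hz
    refine ⟨n * m, ?_⟩
    have : y * z - ((n * m : ℤ) : 𝓞 K) = (y - n) * z + n * (z - m) := by push_cast; ring
    rw [this]
    exact dvd_add (Dvd.dvd.mul_right hn _) (Dvd.dvd.mul_left hm _)

include hζ in
/-- The ring of integers of the `p`-th cyclotomic field satisfies the hypotheses of the abstract
descent, provided Kummer's lemma holds. -/
lemma caseIIRing_toInteger (hp2 : p ≠ 2) (hK : KummerLemmaFor p K) :
    CaseIIRing p hζ.toInteger where
  prime := hp.out
  odd := hp2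
  root := hζ.toInteger_isPrimitiveRoot
  lam_prime := hζ.zeta_sub_one_prime'
  p_assoc := (IsCyclotomicExtension.Rat.associated_zeta_sub_one_pow_prime p hζ).symm
  residue := exists_int_sub_dvd_toInteger hζ
  kummer := hK

end

/-- **Second case of Fermat's Last Theorem** for an odd prime `p` such that the ring of integers of
the `p`-th cyclotomic field is principal and Kummer's lemma holds. -/
theorem caseII {p : ℕ} [Fact p.Prime] (hp2 : p ≠ 2) {K : Type*} [Field K] [NumberField K]
    [IsCyclotomicExtension {p} ℚ K] [IsPrincipalIdealRing (𝓞 K)] (hK : KummerLemmaFor p K)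
    (a b c : ℤ) (hab : IsCoprime a b) (hc : c ≠ 0) (hpc : (p : ℤ) ∣ c) :
    a ^ p + b ^ p ≠ c ^ p := by
  intro heq
  have hpP : p.Prime := Fact.out
  have hζ : IsPrimitiveRoot (IsCyclotomicExtension.zeta p ℚ K) p :=
    IsCyclotomicExtension.zeta_spec p ℚ K
  have hR := caseIIRing_toInteger hζ hp2 hK
  -- `p` does not divide `b`
  have hpb : ¬ (p : ℤ) ∣ b := by
    intro hd
    have hpa : (p : ℤ) ∣ a ^ p := by
      have : a ^ p = c ^ p - b ^ p := by rw [← heq]; ring
      rw [this]
      exact dvd_sub (dvd_pow hpc hpP.ne_zero) (dvd_pow hd hpP.ne_zero)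
    have hpa' : (p : ℤ) ∣ a := (Nat.prime_iff_prime_int.mp hpP).dvd_of_dvd_pow hpa
    exact (Nat.prime_iff_prime_int.mp hpP).not_isUnit (hab.isUnit_of_dvd' hpa' hd)
  refine hR.no_solution (c : 𝓞 K) ?_ ?_ (a : 𝓞 K) (b : 𝓞 K) 1 ?_ ?_ ?_
  · exact_mod_cast hc
  · exact hR.lam_dvd_intCast hpc
  · exact fun hd => hpb (hR.dvd_of_lam_dvd_intCast hd)
  · exact hab.intCast
  · rw [Units.val_one, one_mul]
    exact_mod_cast congrArg (Int.cast : ℤ → 𝓞 K) heq

end Fermat.Agent.Kummer
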