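import Mathlib

/-!
# Ring homomorphisms out of the ring of integers of a prime cyclotomic field

For `K` a `p`-th cyclotomic extension of `ℚ` (`p` prime) and `y` in a ring `T` with
`∑ i ∈ range p, y ^ i = 0`, we construct the ring homomorphism `𝓞 K →+* T` sending
`ζ` to `y`.  We also record that every element of `𝓞 K` is a polynomial in `ζ`.
-/

set_option autoImplicit false
set_option linter.unusedSectionVars false

open NumberField Polynomial

namespace Fermat.Agent.Kummer

section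

variable {p : ℕ} [hp : Fact p.Prime] {K : Type*} [Field K] [NumberField K]
  [IsCyclotomicExtension {p} ℚ K] {ζ : K} (hζ : IsPrimitiveRoot ζ p)

lemma minpoly_toInteger_eq_sum :
    minpoly ℤ hζ.toInteger = ∑ i ∈ Finset.range p, (X : ℤ[X]) ^ i := by
  rw [← RingOfIntegers.minpoly_coe, show ((hζ.toInteger : 𝓞 K) : K) = ζ from rfl,
    ← cyclotomic_eq_minpoly hζ hp.out.pos, cyclotomic_prime]

lemma aeval_minpoly_gen_eq_zero {T : Type*} [Ring T] (y : T)
    (hy : ∑ i ∈ Finset.range p, y ^ i = 0) :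
    aeval y (minpoly ℤ hζ.integralPowerBasis.gen) = 0 := by
  rw [hζ.integralPowerBasis_gen, minpoly_toInteger_eq_sum hζ]
  simpa using hy

/-- The ring homomorphism `𝓞 K →+* T` sending `ζ` to a root `y` of `1 + X + ⋯ + X ^ (p - 1)`. -/
noncomputable def cycLift {T : Type*} [Ring T] (y : T)
    (hy : ∑ i ∈ Finset.range p, y ^ i = 0) : 𝓞 K →+* T :=
  (hζ.integralPowerBasis.lift y (aeval_minpoly_gen_eq_zero hζ y hy)).toRingHom

@[simp]
lemma cycLift_toInteger {T : Type*} [Ring T] (y : T)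
    (hy : ∑ i ∈ Finset.range p, y ^ i = 0) : cycLift hζ y hy hζ.toInteger = y :=
  (congrArg _ hζ.integralPowerBasis_gen.symm).trans
    (hζ.integralPowerBasis.lift_gen y (aeval_minpoly_gen_eq_zero hζ y hy))

/-- Every element of `𝓞 K` is an integer polynomial in `ζ`. -/
lemma exists_eq_aeval_toInteger (x : 𝓞 K) : ∃ f : ℤ[X], x = aeval hζ.toInteger f := by
  obtain ⟨f, hf⟩ := hζ.integralPowerBasis.exists_eq_aeval' x
  rw [hζ.integralPowerBasis_gen] at hf
  exact ⟨f, hf⟩

omit [NumberField K] [IsCyclotomicExtension {p} ℚ K] in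
/-- The relation `1 + ζ + ⋯ + ζ ^ (p - 1) = 0` in `𝓞 K`. -/
lemma toInteger_geom_sum_eq_zero : ∑ i ∈ Finset.range p, hζ.toInteger ^ i = 0 :=
  hζ.toInteger_isPrimitiveRoot.geom_sum_eq_zero hp.out.one_lt

/-- Every element of `𝓞 K` is congruent to a rational integer modulo `ζ - a`, `a : ℤ`. -/
lemma exists_int_sub_dvd_sub (a : ℤ) (x : 𝓞 K) :
    ∃ n : ℤ, hζ.toInteger - (a : 𝓞 K) ∣ x - (n : 𝓞 K) := by
  obtain ⟨f, rfl⟩ := exists_eq_aeval_toInteger hζ x
  refine ⟨f.eval a, ?_⟩
  have h := sub_dvd_eval_sub hζ.toInteger (a : 𝓞 K) (f.map (Int.castRingHom (𝓞 K)))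
  rw [eval_intCast_map] at h
  have h2 : eval hζ.toInteger (f.map (Int.castRingHom (𝓞 K))) = aeval hζ.toInteger f := by
    rw [aeval_def, eval₂_eq_eval_map, algebraMap_int_eq]
  rwa [h2] at h

end

end Fermat.Agent.Kummer
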