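import Mathlib

/-!
# Norms in prime cyclotomic fields as explicit products, and principal primes from norms

Shared tooling for the class-number-one proofs (`p = 11, 13`).
-/

set_option autoImplicit false

open NumberField Polynomial

namespace Fermat.Agent.Kummer

/-- Reindexing a product over the units of `ZMod p` (`p` prime) as a product over `1 ≤ k < p`. -/
theorem prod_units_zmod_eq_prod_Ico {M : Type*} [CommMonoid M] (p : ℕ) [Fact p.Prime]
    (g : ℕ → M) :
    ∏ u : (ZMod p)ˣ, g ((u : ZMod p).val) = ∏ k ∈ Finset.Ico 1 p, g k := by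
  refine Finset.prod_bij (fun u _ => ((u : (ZMod p)ˣ) : ZMod p).val) ?_ ?_ ?_ ?_
  · intro u _
    rw [Finset.mem_Ico]
    refine ⟨?_, ZMod.val_lt _⟩
    rw [Nat.one_le_iff_ne_zero, Ne, ZMod.val_eq_zero]
    exact u.ne_zero
  · intro u _ v _ h
    exact Units.ext (ZMod.val_injective p h)
  · intro k hk
    rw [Finset.mem_Ico] at hk
    have hk0 : (k : ZMod p) ≠ 0 := by
      rw [Ne, ZMod.natCast_eq_zero_iff]
      intro hdvd
      have := Nat.le_of_dvd (by omega) hdvd
      omega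
    refine ⟨Units.mk0 (k : ZMod p) hk0, Finset.mem_univ _, ?_⟩
    simp [ZMod.val_natCast, Nat.mod_eq_of_lt hk.2]
  · intro u _
    rfl

/-- The norm of `F(ζ)` in the `p`-th cyclotomic field is `∏_{1 ≤ k < p} F(ζ ^ k)`. -/
theorem norm_aeval_zeta_eq_prod (p : ℕ) [Fact p.Prime] (K : Type*) [Field K] [NumberField K]
    [IsCyclotomicExtension {p} ℚ K] (F : ℤ[X]) :
    (algebraMap ℚ K) (Algebra.norm ℚ (aeval (IsCyclotomicExtension.zeta p ℚ K) F)) =
      ∏ k ∈ Finset.Ico 1 p, aeval ((IsCyclotomicExtension.zeta p ℚ K) ^ k) F := by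
  have hp : (p : ℕ) ≠ 0 := (Fact.out : p.Prime).ne_zero
  haveI : NeZero p := ⟨hp⟩
  have hirr : Irreducible (cyclotomic p ℚ) := cyclotomic.irreducible_rat (Nat.pos_of_ne_zero hp)
  have : IsGalois ℚ K := IsCyclotomicExtension.isGalois {p} ℚ K
  have hζ := IsCyclotomicExtension.zeta_spec p ℚ K
  rw [Algebra.norm_eq_prod_automorphisms]
  rw [← prod_units_zmod_eq_prod_Ico p
    (fun k => aeval ((IsCyclotomicExtension.zeta p ℚ K) ^ k) F)]
  refine Fintype.prod_equiv (IsCyclotomicExtension.autEquivPow K hirr).toEquiv _ _ ?_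
  intro σ
  have h1 : σ (aeval (IsCyclotomicExtension.zeta p ℚ K) F) =
      aeval (σ (IsCyclotomicExtension.zeta p ℚ K)) F := by
    exact (Polynomial.aeval_algHom_apply ((σ : K →ₐ[ℚ] K).restrictScalars ℤ)
      (IsCyclotomicExtension.zeta p ℚ K) F).symm
  rw [h1]
  congr 1
  have := hζ.autToPow_spec ℚ σ
  rw [← this]
  rfl

/-- Integer-valued version: if `∏_{1 ≤ k < p} F(ζ ^ k) = c` in `K` then the norm of the
algebraic integer `F(ζ)` is `c`. -/
theorem norm_int_aeval_zeta_eq (p : ℕ) [Fact p.Prime] (K : Type*) [Field K] [NumberField K]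
    [IsCyclotomicExtension {p} ℚ K] (F : ℤ[X]) (c : ℤ)
    (h : ∏ k ∈ Finset.Ico 1 p, aeval ((IsCyclotomicExtension.zeta p ℚ K) ^ k) F = (c : K)) :
    Algebra.norm ℤ (aeval (IsCyclotomicExtension.zeta_spec p ℚ K).toInteger F) = c := by
  have h1 := norm_aeval_zeta_eq_prod p K F
  rw [h] at h1
  have h2 : ((aeval (IsCyclotomicExtension.zeta_spec p ℚ K).toInteger F : 𝓞 K) : K) =
      aeval (IsCyclotomicExtension.zeta p ℚ K) F := by
    have := Polynomial.aeval_algebraMap_apply K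
      (IsCyclotomicExtension.zeta_spec p ℚ K).toInteger F
    rw [show algebraMap (𝓞 K) K (IsCyclotomicExtension.zeta_spec p ℚ K).toInteger =
      IsCyclotomicExtension.zeta p ℚ K from
      (IsCyclotomicExtension.zeta_spec p ℚ K).coe_toInteger] at this
    exact this.symm
  have h3 := Algebra.coe_norm_int (aeval (IsCyclotomicExtension.zeta_spec p ℚ K).toInteger F)
  rw [h2] at h3
  have h4 : ((Algebra.norm ℤ (aeval (IsCyclotomicExtension.zeta_spec p ℚ K).toInteger F) : ℤ) : K)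
      = (c : K) := by
    rw [← h1, ← h3]
    simp
  exact_mod_cast h4

/-- If `α` has norm `± q ^ f` and all primes over `q` have inertia degree `f`, then `(α)` is a
(principal) prime over `q`. -/
theorem exists_isPrincipal_mem_primesOver_of_norm {K : Type*} [Field K] [NumberField K]
    (q f : ℕ) (hq : q.Prime) (hf : f ≠ 0)
    (hdeg : ∀ P : Ideal (𝓞 K), P.IsPrime → P.LiesOver (Ideal.span {(q : ℤ)}) →
      P.inertiaDeg ℤ = f)
    (α : 𝓞 K) (hα : (Algebra.norm ℤ α).natAbs = q ^ f) :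
    ∃ P ∈ Ideal.primesOver (Ideal.span {(q : ℤ)}) (𝓞 K), Submodule.IsPrincipal P := by
  set I : Ideal (𝓞 K) := Ideal.span {α} with hI
  have hIN : Ideal.absNorm I = q ^ f := by rw [hI, Ideal.absNorm_span_singleton, hα]
  have hq1 : 1 < q ^ f := Nat.one_lt_pow hf hq.one_lt
  have hItop : I ≠ ⊤ := by
    intro h
    rw [← Ideal.absNorm_eq_one_iff] at h
    omega
  obtain ⟨P, hPmax, hIP⟩ := Ideal.exists_le_maximal I hItop
  have hPprime : P.IsPrime := hPmax.isPrime
  have hdvd : Ideal.absNorm P ∣ q ^ f := hIN ▸ Ideal.absNorm_dvd_absNorm_of_le hIP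
  obtain ⟨j, -, hj⟩ := (Nat.dvd_prime_pow hq).1 hdvd
  have hj0 : j ≠ 0 := by
    rintro rfl
    rw [pow_zero, Ideal.absNorm_eq_one_iff] at hj
    exact hPmax.ne_top hj
  have hqP : (q : 𝓞 K) ∈ P := by
    have := Ideal.absNorm_mem P
    rw [hj] at this
    push_cast at this
    exact hPprime.mem_of_pow_mem j this
  have hqmax : (Ideal.span {(q : ℤ)}).IsMaximal :=
    (Ideal.span_singleton_prime (by exact_mod_cast hq.ne_zero)).2
      (Nat.prime_iff_prime_int.mp hq) |>.isMaximal (by simpa using hq.ne_zero)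
  have hlies : P.LiesOver (Ideal.span {(q : ℤ)}) := by
    constructor
    refine hqmax.eq_of_le (Ideal.comap_ne_top _ hPmax.ne_top) ?_
    rw [Ideal.span_singleton_le_iff_mem, Ideal.mem_comap]
    simpa using hqP
  have hNP : Ideal.absNorm P = q ^ f := by
    rw [← Ideal.pow_inertiaDeg q P, hdeg P hPprime hlies]
  refine ⟨P, ⟨hPprime, hlies⟩, ?_⟩
  obtain ⟨J, hJ⟩ := Ideal.dvd_iff_le.mpr hIP
  have hNJ : Ideal.absNorm J = 1 := by
    have := congrArg Ideal.absNorm hJ
    rw [map_mul, hIN, hNP] at this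
    have hpos : 0 < q ^ f := by omega
    exact (Nat.eq_of_mul_eq_mul_left hpos (by rw [mul_one]; exact this)).symm
  rw [Ideal.absNorm_eq_one_iff] at hNJ
  rw [hNJ, Ideal.mul_top] at hJ
  rw [← hJ, hI]
  exact ⟨⟨α, rfl⟩⟩

end Fermat.Agent.Kummer
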