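import Mathlib
import Fermat.Agent.Lib.Kummer.Defs
import Fermat.Agent.Lib.Kummer.CaseII

/-!
# Kummer route: assembling Case I and Case II

Given Case I (`p ∣ a * b * c` for every coprime solution), a principal ring of integers and
Kummer's lemma, there is no solution of `a ^ p + b ^ p = c ^ p` in nonzero integers with
`a`, `b` coprime.
-/

set_option autoImplicit false

open NumberField

namespace Fermat.Agent.Kummer

/-- If `a ^ p + b ^ p = c ^ p` with `a`, `b` coprime, then `a`, `c` are coprime. -/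
lemma wiring_isCoprime_left {p : ℕ} (hp : p ≠ 0) {a b c : ℤ} (hab : IsCoprime a b)
    (h : a ^ p + b ^ p = c ^ p) : IsCoprime a c := by
  have h1 : IsCoprime (a ^ p) (b ^ p) := hab.pow
  have h2 : IsCoprime (a ^ p) (c ^ p) := by
    rw [← h]
    have h3 := h1.add_mul_left_right 1
    rwa [mul_one, add_comm] at h3
  exact (IsCoprime.pow_iff (Nat.pos_of_ne_zero hp) (Nat.pos_of_ne_zero hp)).mp h2

theorem flt_of_caseI_of_kummer {p : ℕ} [Fact p.Prime] (hp2 : p ≠ 2) {K : Type*} [Field K]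
    [NumberField K] [IsCyclotomicExtension {p} ℚ K] [IsPrincipalIdealRing (𝓞 K)]
    (hK : KummerLemmaFor p K)
    (hI : ∀ a b c : ℤ, IsCoprime a b → a ^ p + b ^ p = c ^ p → (p : ℤ) ∣ a * b * c)
    (a b c : ℤ) (ha : a ≠ 0) (hb : b ≠ 0) (hc : c ≠ 0) (hab : IsCoprime a b) :
    a ^ p + b ^ p ≠ c ^ p := by
  intro h
  have hpP : p.Prime := Fact.out
  have hodd : Odd p := hpP.odd_of_ne_two hp2
  have hpZ : Prime (p : ℤ) := Nat.prime_iff_prime_int.mp hpP
  have hac : IsCoprime a c := wiring_isCoprime_left hpP.ne_zero hab h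
  have hbc : IsCoprime b c :=
    wiring_isCoprime_left hpP.ne_zero hab.symm (by rw [add_comm]; exact h)
  rcases hpZ.dvd_or_dvd (hI a b c hab h) with h1 | h1
  · rcases hpZ.dvd_or_dvd h1 with h2 | h2
    · -- p ∣ a : c ^ p + (-b) ^ p = a ^ p
      refine caseII hp2 hK c (-b) a hbc.symm.neg_right ha h2 ?_
      rw [hodd.neg_pow, ← h]; ring
    · -- p ∣ b : c ^ p + (-a) ^ p = b ^ p
      refine caseII hp2 hK c (-a) b hac.symm.neg_right hb h2 ?_
      rw [hodd.neg_pow, ← h]; ring
  · exact caseII hp2 hK a b c hab hc h1 h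

end Fermat.Agent.Kummer
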