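import Mathlib
import Fermat.Prelude.Def_FLTPrelim_FreyPackage
import Fermat.Agent.Lib.Kummer.Defs
import Fermat.Agent.Lib.Kummer.Wiring

/-!
# Kummer route: non-existence of Frey packages

`freyPackage_false_of_kummer`: if `p` is an odd prime such that the first case holds for `p`
(`IsCoprime a b → a ^ p + b ^ p = c ^ p → p ∣ a * b * c`), the ring of integers of a `p`-th
cyclotomic field `K` is principal and Kummer's lemma holds for `p` and `K`, then there is no Frey
package with prime `p`.
-/

set_option autoImplicit false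

open NumberField

namespace Fermat.Agent.Kummer

/-- There is no Frey package whose prime is `p`, given the first case, principality and Kummer's
lemma for `p`. -/
theorem freyPackage_false_of_kummer {p : ℕ} [Fact p.Prime] (hp2 : p ≠ 2) {K : Type*} [Field K]
    [NumberField K] [IsCyclotomicExtension {p} ℚ K] [IsPrincipalIdealRing (𝓞 K)]
    (hK : KummerLemmaFor p K)
    (hI : ∀ a b c : ℤ, IsCoprime a b → a ^ p + b ^ p = c ^ p → (p : ℤ) ∣ a * b * c)
    (P : FreyPackage) (hP : P.p = p) : False := by
  have hab : IsCoprime P.a P.b := by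
    rw [Int.isCoprime_iff_gcd_eq_one]
    have h1 := P.hgcdab
    have h2 : ((Int.gcd P.a P.b : ℕ) : ℤ) = 1 := by rw [Int.coe_gcd]; exact h1
    exact_mod_cast h2
  have hFLT : P.a ^ p + P.b ^ p = P.c ^ p := hP ▸ P.hFLT
  exact flt_of_caseI_of_kummer hp2 hK hI P.a P.b P.c P.ha0 P.hb0 P.hc0 hab hFLT

end Fermat.Agent.Kummer
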