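import Mathlib

/-!
# Kummer's lemma from an independence certificate (generic part)

For a number field `K`, a prime `p`, a `ZMod p`-module `A` and a group hom
`θ : (𝓞 K)ˣ →* Multiplicative A` that kills every unit congruent to a rational integer
modulo `p`: if `rank K + 1` units have `ZMod p`-linearly independent images under `θ`,
then every unit congruent to a rational integer modulo `p` is a `p`-th power.
-/

open NumberField

namespace Fermat.Agent.KummerLemma

variable {K : Type*} [Field K] [NumberField K]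

/-- Generators of the unit group: a generator of the torsion and a fundamental system. -/
noncomputable def klGen (K : Type*) [Field K] [NumberField K] :
    Fin (Units.rank K + 1) → (𝓞 K)ˣ :=
  Fin.cons ((IsCyclic.exists_generator (α := Units.torsion K)).choose : (𝓞 K)ˣ)
    (Units.fundSystem K)

lemma klGen_surj (u : (𝓞 K)ˣ) :
    ∃ e : Fin (Units.rank K + 1) → ℤ, u = ∏ i, klGen K i ^ e i := by
  obtain ⟨⟨τ, e⟩, hu, -⟩ := Units.exist_unique_eq_mul_prod K u
  have hgen := (IsCyclic.exists_generator (α := Units.torsion K)).choose_spec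
  obtain ⟨k, hk⟩ := Subgroup.mem_zpowers_iff.mp (hgen τ)
  refine ⟨Fin.cons k e, ?_⟩
  rw [Fin.prod_univ_succ]
  simp only [klGen, Fin.cons_zero, Fin.cons_succ]
  rw [hu]
  congr 1
  rw [← hk]
  simp

variable {p : ℕ} [Fact p.Prime] {A : Type*} [AddCommGroup A] [Module (ZMod p) A]

omit [NumberField K] in
lemma theta_prod_zpow (θ : (𝓞 K)ˣ →* Multiplicative A) {n : ℕ} (g : Fin n → (𝓞 K)ˣ)
    (e : Fin n → ℤ) :
    Multiplicative.toAdd (θ (∏ i, g i ^ e i)) =
      ∑ i, (e i : ZMod p) • Multiplicative.toAdd (θ (g i)) := by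
  rw [map_prod, toAdd_prod]
  refine Finset.sum_congr rfl fun i _ => ?_
  rw [map_zpow, toAdd_zpow, Int.cast_smul_eq_zsmul]

theorem kummer_of_linearIndependent {ι : Type*} [Fintype ι]
    (hcard : Fintype.card ι = Units.rank K + 1)
    (θ : (𝓞 K)ˣ →* Multiplicative A)
    (hθ : ∀ u : (𝓞 K)ˣ, (∃ n : ℤ, (p : 𝓞 K) ∣ (u : 𝓞 K) - (n : 𝓞 K)) → θ u = 1)
    (η : ι → (𝓞 K)ˣ)
    (hind : LinearIndependent (ZMod p) (fun a => Multiplicative.toAdd (θ (η a))))
    (u : (𝓞 K)ˣ) (hu : ∃ n : ℤ, (p : 𝓞 K) ∣ (u : 𝓞 K) - (n : 𝓞 K)) :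
    ∃ v : (𝓞 K)ˣ, u = v ^ p := by
  classical
  have hne : Nonempty ι := Fintype.card_pos_iff.mp (by omega)
  -- the linear map
  let L : (Fin (Units.rank K + 1) → ZMod p) →ₗ[ZMod p] A :=
    Fintype.linearCombination (ZMod p) (fun i => Multiplicative.toAdd (θ (klGen K i)))
  have hL : ∀ e : Fin (Units.rank K + 1) → ℤ,
      Multiplicative.toAdd (θ (∏ i, klGen K i ^ e i)) = L (fun i => (e i : ZMod p)) := by
    intro e
    rw [theta_prod_zpow (p := p)]
    simp only [L, Fintype.linearCombination_apply]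
  -- exponent vectors of the η's
  choose E hE using fun a => klGen_surj (η a)
  let w : ι → (Fin (Units.rank K + 1) → ZMod p) := fun a i => (E a i : ZMod p)
  have hw : (fun a => Multiplicative.toAdd (θ (η a))) = L ∘ w := by
    funext a
    simp only [Function.comp_apply]
    conv_lhs => rw [hE a]
    exact hL (E a)
  have hwind : LinearIndependent (ZMod p) w := by
    rw [hw] at hind
    exact hind.of_comp L
  have hfin : Fintype.card ι = Module.finrank (ZMod p) (Fin (Units.rank K + 1) → ZMod p) := by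
    rw [hcard]; simp
  let b := basisOfLinearIndependentOfCardEqFinrank hwind hfin
  have hLinj : ∀ x, L x = 0 → x = 0 := by
    intro x hx
    have hxb : x = ∑ a, b.repr x a • w a := by
      conv_lhs => rw [← b.sum_repr x]
      simp [b]
    have : ∑ a, b.repr x a • Multiplicative.toAdd (θ (η a)) = 0 := by
      have h2 : L x = ∑ a, b.repr x a • L (w a) := by
        conv_lhs => rw [hxb]
        simp
      rw [← hx, h2]
      refine Finset.sum_congr rfl fun a _ => ?_
      rw [show Multiplicative.toAdd (θ (η a)) = L (w a) from congrFun hw a]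
    have hc := Fintype.linearIndependent_iff.mp hind _ this
    rw [hxb]
    simp [hc]
  -- now the unit u
  obtain ⟨e, he⟩ := klGen_surj u
  have h1 : L (fun i => (e i : ZMod p)) = 0 := by
    rw [← hL e, ← he, hθ u hu]; rfl
  have h2 := hLinj _ h1
  have h3 : ∀ i, (p : ℤ) ∣ e i := fun i =>
    (ZMod.intCast_zmod_eq_zero_iff_dvd (e i) p).mp (congrFun h2 i)
  choose e' he' using h3
  refine ⟨∏ i, klGen K i ^ e' i, ?_⟩
  rw [he, ← Finset.prod_pow]
  refine Finset.prod_congr rfl fun i _ => ?_
  rw [he' i, ← zpow_natCast, ← zpow_mul, mul_comm]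

end Fermat.Agent.KummerLemma
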