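import Mathlib

/-!
# Kummer lemma, polynomial data (shared definitions)

`klD p a` and `klE p a` are the two components of the image of the cyclotomic unit
`η_a = 1 + ζ + ... + ζ^a` (and `η_0 = ζ`) under `ζ ↦ (1 + X) (1 + ε)`.
-/

set_option autoImplicit false

open Polynomial

namespace Fermat.Agent.KummerLemma

/-- First component (value) of the image of `η_a`. -/
noncomputable def klD (p a : ℕ) : (ZMod p)[X] :=
  if a = 0 then 1 + X else ∑ i ∈ Finset.range (a + 1), (1 + X) ^ i

/-- Second component (derivative part) of the image of `η_a`. -/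
noncomputable def klE (p a : ℕ) : (ZMod p)[X] :=
  if a = 0 then 1 + X else ∑ i ∈ Finset.range (a + 1), (i : (ZMod p)[X]) * (1 + X) ^ i

end Fermat.Agent.KummerLemma
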