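import Mathlib

/-!
# The dual-number logarithmic derivative on units of `ℤ[ζ_p]`
-/

open NumberField Polynomial

namespace Fermat.Agent.KummerLemma

variable (p : ℕ)

/-- The truncated polynomial ring `𝔽_p[X]/(X^(p-2))`. -/
abbrev klA : Type := (ZMod p)[X] ⧸ Ideal.span {(X : (ZMod p)[X]) ^ (p - 2)}

/-- Dual numbers over `klA p`. -/
abbrev klB : Type := TrivSqZeroExt (klA p) (klA p)

/-- The class of `1 + X`. -/
noncomputable def klx : klA p := Ideal.Quotient.mk _ (1 + X)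

/-- The image of `ζ`: `(1+X)(1+ε)`. -/
noncomputable def kly : klB p := TrivSqZeroExt.inl (klx p) + TrivSqZeroExt.inr (klx p)

lemma klx_sub_one_pow : (klx p - 1) ^ (p - 2) = 0 := by
  have : klx p - 1 = Ideal.Quotient.mk (Ideal.span {(X : (ZMod p)[X]) ^ (p - 2)}) X := by
    simp [klx]
  rw [this, ← map_pow]
  exact Ideal.Quotient.eq_zero_iff_mem.mpr (Ideal.mem_span_singleton_self _)

@[simp] lemma kly_fst : (kly p).fst = klx p := by simp [kly]

@[simp] lemma kly_snd : (kly p).snd = klx p := by simp [kly]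

lemma kly_pow_fst (n : ℕ) : (kly p ^ n).fst = klx p ^ n := by simp

lemma kly_pow_snd (n : ℕ) : (kly p ^ n).snd = (n : klA p) * klx p ^ n := by
  rw [TrivSqZeroExt.snd_pow]
  cases n with
  | zero => simp
  | succ n => simp [pow_succ]

lemma kly_sub_one_pow (h3 : 3 ≤ p) : (kly p - 1) ^ (p - 1) = 0 := by
  have h1 : (p - 1 : ℕ) = (p - 2) + 1 := by omega
  ext
  · simp only [TrivSqZeroExt.fst_pow, TrivSqZeroExt.fst_sub, kly_fst, TrivSqZeroExt.fst_one,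
      TrivSqZeroExt.fst_zero]
    rw [h1, pow_succ, klx_sub_one_pow, zero_mul]
  · rw [TrivSqZeroExt.snd_pow]
    have : (p - 1).pred = p - 2 := by simp [Nat.pred_eq_sub_one]; omega
    rw [this]
    simp only [TrivSqZeroExt.fst_sub, kly_fst, TrivSqZeroExt.fst_one, klx_sub_one_pow]
    simp

variable [hp : Fact p.Prime]

lemma cyclotomic_zmod_eq : cyclotomic p (ZMod p) = (X - 1) ^ (p - 1) := by
  have h := cyclotomic_mul_prime_pow_eq (ZMod p) (p := p) (m := 1)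
    (by rw [Nat.dvd_one]; exact hp.out.one_lt.ne') (k := 1) one_pos
  simpa [cyclotomic_one] using h

lemma aeval_kly_cyclotomic (h3 : 3 ≤ p) : aeval (kly p) (cyclotomic p ℤ) = 0 := by
  have h2 : aeval (kly p) (cyclotomic p ℤ) = aeval (kly p) (cyclotomic p (ZMod p)) := by
    rw [← map_cyclotomic_int p (ZMod p), aeval_def, aeval_def, eval₂_map]
    congr 1
  rw [h2, cyclotomic_zmod_eq]
  simp only [map_pow, map_sub, aeval_X, map_one]
  exact kly_sub_one_pow p h3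

section Psi

variable {p}
variable {K : Type*} [Field K] [NumberField K] [IsCyclotomicExtension {p} ℚ K]
variable {ζ : K} (hζ : IsPrimitiveRoot ζ p)

lemma minpoly_toInteger : minpoly ℤ hζ.integralPowerBasis.gen = cyclotomic p ℤ := by
  rw [hζ.integralPowerBasis_gen, ← RingOfIntegers.minpoly_coe,
    cyclotomic_eq_minpoly hζ hp.out.pos]
  rfl

/-- The ring hom `𝓞 K → klB p` sending `ζ` to `kly p`. -/
noncomputable def klPsi (h3 : 3 ≤ p) : 𝓞 K →ₐ[ℤ] klB p :=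
  hζ.integralPowerBasis.lift (kly p) (by rw [minpoly_toInteger hζ]; exact aeval_kly_cyclotomic p h3)

lemma klPsi_zeta (h3 : 3 ≤ p) : klPsi hζ h3 hζ.toInteger = kly p := by
  have h1 : klPsi hζ h3 hζ.toInteger = klPsi hζ h3 hζ.integralPowerBasis.gen := by
    rw [hζ.integralPowerBasis_gen]
  rw [h1]
  exact hζ.integralPowerBasis.lift_gen (kly p) _

lemma klA_natCast_p : ((p : ℕ) : klA p) = 0 := by
  rw [← map_natCast (algebraMap (ZMod p) (klA p)), ZMod.natCast_self, map_zero]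

lemma klPsi_natCast_p (h3 : 3 ≤ p) : klPsi hζ h3 (p : 𝓞 K) = 0 := by
  rw [map_natCast]
  ext
  · simp [klA_natCast_p]
  · simp

/-- The logarithmic derivative `θ : (𝓞 K)ˣ →* Multiplicative (klA p)`. -/
noncomputable def klTheta (h3 : 3 ≤ p) : (𝓞 K)ˣ →* Multiplicative (klA p) where
  toFun u := Multiplicative.ofAdd
    ((klPsi hζ h3 (u : 𝓞 K)).snd * (klPsi hζ h3 ((u⁻¹ : (𝓞 K)ˣ) : 𝓞 K)).fst)
  map_one' := by simp
  map_mul' u v := by
    rw [← ofAdd_add]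
    congr 1
    have hu : (klPsi hζ h3 (u : 𝓞 K)).fst * (klPsi hζ h3 ((u⁻¹ : (𝓞 K)ˣ) : 𝓞 K)).fst = 1 := by
      rw [← TrivSqZeroExt.fst_mul, ← map_mul]; simp
    have hv : (klPsi hζ h3 (v : 𝓞 K)).fst * (klPsi hζ h3 ((v⁻¹ : (𝓞 K)ˣ) : 𝓞 K)).fst = 1 := by
      rw [← TrivSqZeroExt.fst_mul, ← map_mul]; simp
    simp only [Units.val_mul, map_mul, mul_inv_rev, TrivSqZeroExt.snd_mul, TrivSqZeroExt.fst_mul,
      smul_eq_mul, MulOpposite.smul_eq_mul_unop, MulOpposite.unop_op]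
    linear_combination
      ((klPsi hζ h3 (v : 𝓞 K)).snd * (klPsi hζ h3 ((v⁻¹ : (𝓞 K)ˣ) : 𝓞 K)).fst) * hu +
      ((klPsi hζ h3 (u : 𝓞 K)).snd * (klPsi hζ h3 ((u⁻¹ : (𝓞 K)ˣ) : 𝓞 K)).fst) * hv

lemma klTheta_mul_fst (h3 : 3 ≤ p) (u : (𝓞 K)ˣ) :
    Multiplicative.toAdd (klTheta hζ h3 u) * (klPsi hζ h3 (u : 𝓞 K)).fst =
      (klPsi hζ h3 (u : 𝓞 K)).snd := by
  have hu : (klPsi hζ h3 (u : 𝓞 K)).fst * (klPsi hζ h3 ((u⁻¹ : (𝓞 K)ˣ) : 𝓞 K)).fst = 1 := by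
    rw [← TrivSqZeroExt.fst_mul, ← map_mul]; simp
  simp only [klTheta, MonoidHom.coe_mk, OneHom.coe_mk, toAdd_ofAdd]
  linear_combination (klPsi hζ h3 (u : 𝓞 K)).snd * hu

lemma klTheta_eq_one (h3 : 3 ≤ p) (u : (𝓞 K)ˣ)
    (hu : ∃ n : ℤ, (p : 𝓞 K) ∣ (u : 𝓞 K) - (n : 𝓞 K)) : klTheta hζ h3 u = 1 := by
  obtain ⟨n, β, hβ⟩ := hu
  have h1 : (u : 𝓞 K) = n + p * β := by rw [← hβ]; ring
  have h2 : (klPsi hζ h3 (u : 𝓞 K)).snd = 0 := by
    rw [h1, map_add, map_mul, klPsi_natCast_p, zero_mul, add_zero, map_intCast]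
    simp
  simp only [klTheta, MonoidHom.coe_mk, OneHom.coe_mk, h2, zero_mul]
  rfl

end Psi

end Fermat.Agent.KummerLemma
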