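import Mathlib
import Fermat.Agent.Lib.Kummer.KLGeneric
import Fermat.Agent.Lib.Kummer.KLTheta
import Fermat.Agent.Lib.Kummer.KLPolyDefs

/-!
# Kummer's lemma from a polynomial independence statement
-/

open NumberField Polynomial

namespace Fermat.Agent.KummerLemma

/-- The polynomial independence statement for the prime `p`. -/
def KLIndep (p : ℕ) : Prop :=
  ∀ c : Fin ((p - 1) / 2) → ZMod p,
    (X : (ZMod p)[X]) ^ (p - 2) ∣
      ∑ a : Fin ((p - 1) / 2), C (c a) * (klE p a * ∏ b ∈ Finset.univ.erase a, klD p b) →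
    c = 0

variable {p : ℕ} [hp : Fact p.Prime]
variable {K : Type*} [Field K] [NumberField K] [IsCyclotomicExtension {p} ℚ K]

lemma kl_rank (h3 : 3 ≤ p) : Units.rank K + 1 = (p - 1) / 2 := by
  have : NeZero p := ⟨hp.out.ne_zero⟩
  have h1 : Units.rank K = Fintype.card (InfinitePlace K) - 1 := rfl
  have h2 := InfinitePlace.card_eq_nrRealPlaces_add_nrComplexPlaces K
  have h3' := IsCyclotomicExtension.Rat.nrRealPlaces_eq_zero (n := p) K (by omega)
  have h4 := IsCyclotomicExtension.Rat.nrComplexPlaces_eq_totient_div_two p K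
  rw [Nat.totient_prime hp.out] at h4
  have h5 : 1 ≤ (p - 1) / 2 := by omega
  omega

variable {ζ : K} (hζ : IsPrimitiveRoot ζ p)

lemma kl_coprime (a : Fin ((p - 1) / 2)) : ((a : ℕ) + 1).Coprime p := by
  have ha := a.2
  refine Nat.Coprime.symm ((Nat.Prime.coprime_iff_not_dvd hp.out).mpr ?_)
  exact Nat.not_dvd_of_pos_of_lt (by omega) (by omega)

/-- The units `η_a`. -/
noncomputable def klEta (h3 : 3 ≤ p) (a : Fin ((p - 1) / 2)) : (𝓞 K)ˣ :=
  haveI : NeZero p := ⟨hp.out.ne_zero⟩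
  if (a : ℕ) = 0 then (hζ.toInteger_isPrimitiveRoot.isUnit hp.out.ne_zero).unit
  else (hζ.toInteger_isPrimitiveRoot.geom_sum_isUnit (by omega) (kl_coprime a)).unit

lemma klPsi_zeta_pow (h3 : 3 ≤ p) (i : ℕ) :
    klPsi hζ h3 (hζ.toInteger ^ i) = kly p ^ i := by
  rw [map_pow, klPsi_zeta]

lemma klPsi_klEta_fst (h3 : 3 ≤ p) (a : Fin ((p - 1) / 2)) :
    (klPsi hζ h3 (klEta hζ h3 a : 𝓞 K)).fst = Ideal.Quotient.mk _ (klD p a) := by
  unfold klEta klD
  split_ifs with h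
  · simp [klPsi_zeta, klx]
  · simp only [IsUnit.unit_spec, map_sum, klPsi_zeta_pow, TrivSqZeroExt.fst_sum, kly_pow_fst]
    simp [klx]

lemma klPsi_klEta_snd (h3 : 3 ≤ p) (a : Fin ((p - 1) / 2)) :
    (klPsi hζ h3 (klEta hζ h3 a : 𝓞 K)).snd = Ideal.Quotient.mk _ (klE p a) := by
  unfold klEta klE
  split_ifs with h
  · simp [klPsi_zeta, klx]
  · simp only [IsUnit.unit_spec, map_sum, klPsi_zeta_pow, TrivSqZeroExt.snd_sum, kly_pow_snd]
    simp [klx]

theorem kummerLemma_of_klIndep (h3 : 3 ≤ p) (hind : KLIndep p)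
    (u : (𝓞 K)ˣ) (hu : ∃ n : ℤ, (p : 𝓞 K) ∣ (u : 𝓞 K) - (n : 𝓞 K)) :
    ∃ v : (𝓞 K)ˣ, u = v ^ p := by
  classical
  have : NeZero p := ⟨hp.out.ne_zero⟩
  have hζ := IsCyclotomicExtension.zeta_spec p ℚ K
  refine kummer_of_linearIndependent (p := p) (ι := Fin ((p - 1) / 2))
    (by rw [Fintype.card_fin, kl_rank h3]) (klTheta hζ h3) (klTheta_eq_one hζ h3)
    (klEta hζ h3) ?_ u hu
  rw [Fintype.linearIndependent_iff]
  intro c hc
  have hc0 : c = 0 := by
    apply hind c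
    rw [← Ideal.mem_span_singleton, ← Ideal.Quotient.eq_zero_iff_mem]
    set I := Ideal.span {(X : (ZMod p)[X]) ^ (p - 2)} with hI
    have key : ∀ a : Fin ((p - 1) / 2),
        Multiplicative.toAdd (klTheta hζ h3 (klEta hζ h3 a)) *
          ∏ b : Fin ((p - 1) / 2), Ideal.Quotient.mk I (klD p b) =
        Ideal.Quotient.mk I (klE p a * ∏ b ∈ Finset.univ.erase a, klD p b) := by
      intro a
      rw [← Finset.mul_prod_erase Finset.univ _ (Finset.mem_univ a), ← mul_assoc,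
        ← klPsi_klEta_fst hζ h3 a, klTheta_mul_fst, klPsi_klEta_snd, map_mul, map_prod]
    have h1 : (∑ a, c a • Multiplicative.toAdd (klTheta hζ h3 (klEta hζ h3 a))) *
        ∏ b : Fin ((p - 1) / 2), Ideal.Quotient.mk I (klD p b) = 0 := by
      rw [hc, zero_mul]
    rw [Finset.sum_mul] at h1
    rw [map_sum, ← h1]
    refine Finset.sum_congr rfl fun a _ => ?_
    rw [smul_mul_assoc, key, ← Polynomial.smul_eq_C_mul]
    rfl
  intro a
  rw [hc0]
  rfl

end Fermat.Agent.KummerLemma
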