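import Mathlib
import Fermat.Agent.Lib.Kummer.KLPolyDefs

/-!
# Kummer lemma, polynomial independence for p = 11

Generated data: the images of the cyclotomic units are linearly independent modulo `X ^ (p - 2)`.
-/

set_option autoImplicit false
set_option linter.unusedSimpArgs false
set_option linter.unusedVariables false

open Polynomial

namespace Fermat.Agent.KummerLemma

private lemma klD11_0 : klD 11 0 = (1 + X) := by
  simp [klD, Finset.sum_range_succ]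
private lemma klE11_0 : klE 11 0 = (1 + X) := by
  simp [klE, Finset.sum_range_succ]
private lemma klD11_1 : klD 11 1 = (1 + (1 + X)) := by
  simp [klD, Finset.sum_range_succ]
private lemma klE11_1 : klE 11 1 = ((1 + X)) := by
  simp [klE, Finset.sum_range_succ]
private lemma klD11_2 : klD 11 2 = (1 + (1 + X) + (1 + X) ^ 2) := by
  simp [klD, Finset.sum_range_succ]
private lemma klE11_2 : klE 11 2 = ((1 + X) + 2 * (1 + X) ^ 2) := by
  simp [klE, Finset.sum_range_succ]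
private lemma klD11_3 : klD 11 3 = (1 + (1 + X) + (1 + X) ^ 2 + (1 + X) ^ 3) := by
  simp [klD, Finset.sum_range_succ]
private lemma klE11_3 : klE 11 3 = ((1 + X) + 2 * (1 + X) ^ 2 + 3 * (1 + X) ^ 3) := by
  simp [klE, Finset.sum_range_succ]
private lemma klD11_4 : klD 11 4 = (1 + (1 + X) + (1 + X) ^ 2 + (1 + X) ^ 3 + (1 + X) ^ 4) := by
  simp [klD, Finset.sum_range_succ]
private lemma klE11_4 : klE 11 4 = ((1 + X) + 2 * (1 + X) ^ 2 + 3 * (1 + X) ^ 3 + 4 * (1 + X) ^ 4) := by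
  simp [klE, Finset.sum_range_succ]

private lemma klErase11_0 : (Finset.univ.erase (0 : Fin 5)) = {1, 2, 3, 4} := by decide
private lemma klErase11_1 : (Finset.univ.erase (1 : Fin 5)) = {0, 2, 3, 4} := by decide
private lemma klErase11_2 : (Finset.univ.erase (2 : Fin 5)) = {0, 1, 3, 4} := by decide
private lemma klErase11_3 : (Finset.univ.erase (3 : Fin 5)) = {0, 1, 2, 4} := by decide
private lemma klErase11_4 : (Finset.univ.erase (4 : Fin 5)) = {0, 1, 2, 3} := by decide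

private lemma klP11_0 : klE 11 ((0 : Fin 5) : ℕ) * ∏ b ∈ Finset.univ.erase (0 : Fin 5), klD 11 (b : ℕ)
    = (120 + 720 * X + 2050 * X ^ 2 + 3650 * X ^ 3 + 4499 * X ^ 4 + 4016 * X ^ 5 + 2640 * X ^ 6 + 1274 * X ^ 7 + 441 * X ^ 8 + 104 * X ^ 9 + 15 * X ^ 10 + 1 * X ^ 11 : (ZMod 11)[X]) := by
  have h1 : klE 11 ((0 : Fin 5) : ℕ) * ∏ b ∈ Finset.univ.erase (0 : Fin 5), klD 11 (b : ℕ)
      = ((1 + X) * ((1 + (1 + X)) * ((1 + (1 + X) + (1 + X) ^ 2) * ((1 + (1 + X) + (1 + X) ^ 2 + (1 + X) ^ 3) * (1 + (1 + X) + (1 + X) ^ 2 + (1 + X) ^ 3 + (1 + X) ^ 4)))) : (ZMod 11)[X]) := by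
    rw [klErase11_0]
    simp [klE11_0, klD11_1, klD11_2, klD11_3, klD11_4]
  rw [h1]
  ring

private lemma klP11_1 : klE 11 ((1 : Fin 5) : ℕ) * ∏ b ∈ Finset.univ.erase (1 : Fin 5), klD 11 (b : ℕ)
    = (60 + 390 * X + 1190 * X ^ 2 + 2255 * X ^ 3 + 2947 * X ^ 4 + 2784 * X ^ 5 + 1936 * X ^ 6 + 989 * X ^ 7 + 363 * X ^ 8 + 91 * X ^ 9 + 14 * X ^ 10 + 1 * X ^ 11 : (ZMod 11)[X]) := by
  have h1 : klE 11 ((1 : Fin 5) : ℕ) * ∏ b ∈ Finset.univ.erase (1 : Fin 5), klD 11 (b : ℕ)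
      = (((1 + X)) * ((1 + X) * ((1 + (1 + X) + (1 + X) ^ 2) * ((1 + (1 + X) + (1 + X) ^ 2 + (1 + X) ^ 3) * (1 + (1 + X) + (1 + X) ^ 2 + (1 + X) ^ 3 + (1 + X) ^ 4)))) : (ZMod 11)[X]) := by
    rw [klErase11_1]
    simp [klE11_1, klD11_0, klD11_2, klD11_3, klD11_4]
  rw [h1]
  ring

private lemma klP11_2 : klE 11 ((2 : Fin 5) : ℕ) * ∏ b ∈ Finset.univ.erase (2 : Fin 5), klD 11 (b : ℕ)
    = (120 + 800 * X + 2490 * X ^ 2 + 4790 * X ^ 3 + 6329 * X ^ 4 + 6022 * X ^ 5 + 4201 * X ^ 6 + 2143 * X ^ 7 + 781 * X ^ 8 + 193 * X ^ 9 + 29 * X ^ 10 + 2 * X ^ 11 : (ZMod 11)[X]) := by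
  have h1 : klE 11 ((2 : Fin 5) : ℕ) * ∏ b ∈ Finset.univ.erase (2 : Fin 5), klD 11 (b : ℕ)
      = (((1 + X) + 2 * (1 + X) ^ 2) * ((1 + X) * ((1 + (1 + X)) * ((1 + (1 + X) + (1 + X) ^ 2 + (1 + X) ^ 3) * (1 + (1 + X) + (1 + X) ^ 2 + (1 + X) ^ 3 + (1 + X) ^ 4)))) : (ZMod 11)[X]) := by
    rw [klErase11_2]
    simp [klE11_2, klD11_0, klD11_1, klD11_3, klD11_4]
  rw [h1]
  ring

private lemma klP11_3 : klE 11 ((3 : Fin 5) : ℕ) * ∏ b ∈ Finset.univ.erase (3 : Fin 5), klD 11 (b : ℕ)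
    = (180 + 1230 * X + 3900 * X ^ 2 + 7595 * X ^ 3 + 10101 * X ^ 4 + 9624 * X ^ 5 + 6690 * X ^ 6 + 3385 * X ^ 7 + 1219 * X ^ 8 + 297 * X ^ 9 + 44 * X ^ 10 + 3 * X ^ 11 : (ZMod 11)[X]) := by
  have h1 : klE 11 ((3 : Fin 5) : ℕ) * ∏ b ∈ Finset.univ.erase (3 : Fin 5), klD 11 (b : ℕ)
      = (((1 + X) + 2 * (1 + X) ^ 2 + 3 * (1 + X) ^ 3) * ((1 + X) * ((1 + (1 + X)) * ((1 + (1 + X) + (1 + X) ^ 2) * (1 + (1 + X) + (1 + X) ^ 2 + (1 + X) ^ 3 + (1 + X) ^ 4)))) : (ZMod 11)[X]) := by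
    rw [klErase11_3]
    simp [klE11_3, klD11_0, klD11_1, klD11_2, klD11_4]
  rw [h1]
  ring

private lemma klP11_4 : klE 11 ((4 : Fin 5) : ℕ) * ∏ b ∈ Finset.univ.erase (4 : Fin 5), klD 11 (b : ℕ)
    = (240 + 1680 * X + 5420 * X ^ 2 + 10656 * X ^ 3 + 14200 * X ^ 4 + 13474 * X ^ 5 + 9291 * X ^ 6 + 4655 * X ^ 7 + 1660 * X ^ 8 + 401 * X ^ 9 + 59 * X ^ 10 + 4 * X ^ 11 : (ZMod 11)[X]) := by
  have h1 : klE 11 ((4 : Fin 5) : ℕ) * ∏ b ∈ Finset.univ.erase (4 : Fin 5), klD 11 (b : ℕ)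
      = (((1 + X) + 2 * (1 + X) ^ 2 + 3 * (1 + X) ^ 3 + 4 * (1 + X) ^ 4) * ((1 + X) * ((1 + (1 + X)) * ((1 + (1 + X) + (1 + X) ^ 2) * (1 + (1 + X) + (1 + X) ^ 2 + (1 + X) ^ 3)))) : (ZMod 11)[X]) := by
    rw [klErase11_4]
    simp [klE11_4, klD11_0, klD11_1, klD11_2, klD11_3]
  rw [h1]
  ring

theorem klIndep_eleven (c : Fin 5 → ZMod 11)
    (h : (X : (ZMod 11)[X]) ^ 9 ∣ ∑ a : Fin 5, C (c a) * (klE 11 a * ∏ b ∈ Finset.univ.erase a, klD 11 b)) :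
    c = 0 := by
  rw [Fin.sum_univ_five, klP11_0, klP11_1, klP11_2, klP11_3, klP11_4] at h
  rw [Polynomial.X_pow_dvd_iff] at h
  have h11 : (11 : ZMod 11) = 0 := by decide
  have e0 := h 0 (by norm_num)
  simp only [coeff_add, coeff_C_mul, coeff_ofNat_mul, coeff_X_pow, coeff_X, coeff_ofNat_zero, coeff_ofNat_succ, coeff_one, coeff_X_zero, coeff_one_zero] at e0
  norm_num at e0
  have e1 := h 1 (by norm_num)
  simp only [coeff_add, coeff_C_mul, coeff_ofNat_mul, coeff_X_pow, coeff_X, coeff_ofNat_zero, coeff_ofNat_succ, coeff_one, coeff_X_zero, coeff_one_zero] at e1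
  norm_num at e1
  have e2 := h 3 (by norm_num)
  simp only [coeff_add, coeff_C_mul, coeff_ofNat_mul, coeff_X_pow, coeff_X, coeff_ofNat_zero, coeff_ofNat_succ, coeff_one, coeff_X_zero, coeff_one_zero] at e2
  norm_num at e2
  have e3 := h 5 (by norm_num)
  simp only [coeff_add, coeff_C_mul, coeff_ofNat_mul, coeff_X_pow, coeff_X, coeff_ofNat_zero, coeff_ofNat_succ, coeff_one, coeff_X_zero, coeff_one_zero] at e3
  norm_num at e3
  have e4 := h 7 (by norm_num)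
  simp only [coeff_add, coeff_C_mul, coeff_ofNat_mul, coeff_X_pow, coeff_X, coeff_ofNat_zero, coeff_ofNat_succ, coeff_one, coeff_X_zero, coeff_one_zero] at e4
  norm_num at e4
  funext j
  fin_cases j
  · show c 0 = 0
    linear_combination (8) * e0 + (1) * e1 + (2) * e2 + (1) * e3 + (2) * e4 - ((1413) * c 0 + (922) * c 1 + (1968) * c 2 + (3114) * c 3 + (4336) * c 4) * h11
  · show c 1 = 0
    linear_combination (5) * e0 + (0) * e1 + (8) * e2 + (8) * e3 + (10) * e4 - ((6788) * c 0 + (4591) * c 1 + (9866) * c 2 + (15682) * c 3 + (21890) * c 4) * h11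
  · show c 2 = 0
    linear_combination (5) * e0 + (1) * e1 + (4) * e2 + (9) * e3 + (6) * e4 - ((5428) * c 0 + (3700) * c 1 + (7965) * c 2 + (12676) * c 3 + (17700) * c 4) * h11
  · show c 3 = 0
    linear_combination (9) * e0 + (6) * e1 + (8) * e2 + (9) * e3 + (7) * e4 - ((7242) * c 0 + (4809) * c 1 + (10309) * c 2 + (16370) * c 3 + (22849) * c 4) * h11
  · show c 4 = 0
    linear_combination (7) * e0 + (0) * e1 + (0) * e2 + (0) * e3 + (2) * e4 - ((308) * c 0 + (218) * c 1 + (466) * c 2 + (730) * c 3 + (999) * c 4) * h11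

end Fermat.Agent.KummerLemma
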