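import Mathlib
import Fermat.Agent.Lib.Kummer.KLPolyDefs

/-!
# Kummer lemma, polynomial independence for p = 13

Generated data: the images of the cyclotomic units are linearly independent modulo `X ^ (p - 2)`.
-/

set_option autoImplicit false
set_option linter.unusedSimpArgs false
set_option linter.unusedVariables false

open Polynomial

namespace Fermat.Agent.KummerLemma

private lemma klD13_0 : klD 13 0 = (1 + X) := by
  simp [klD, Finset.sum_range_succ]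
private lemma klE13_0 : klE 13 0 = (1 + X) := by
  simp [klE, Finset.sum_range_succ]
private lemma klD13_1 : klD 13 1 = (1 + (1 + X)) := by
  simp [klD, Finset.sum_range_succ]
private lemma klE13_1 : klE 13 1 = ((1 + X)) := by
  simp [klE, Finset.sum_range_succ]
private lemma klD13_2 : klD 13 2 = (1 + (1 + X) + (1 + X) ^ 2) := by
  simp [klD, Finset.sum_range_succ]
private lemma klE13_2 : klE 13 2 = ((1 + X) + 2 * (1 + X) ^ 2) := by
  simp [klE, Finset.sum_range_succ]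
private lemma klD13_3 : klD 13 3 = (1 + (1 + X) + (1 + X) ^ 2 + (1 + X) ^ 3) := by
  simp [klD, Finset.sum_range_succ]
private lemma klE13_3 : klE 13 3 = ((1 + X) + 2 * (1 + X) ^ 2 + 3 * (1 + X) ^ 3) := by
  simp [klE, Finset.sum_range_succ]
private lemma klD13_4 : klD 13 4 = (1 + (1 + X) + (1 + X) ^ 2 + (1 + X) ^ 3 + (1 + X) ^ 4) := by
  simp [klD, Finset.sum_range_succ]
private lemma klE13_4 : klE 13 4 = ((1 + X) + 2 * (1 + X) ^ 2 + 3 * (1 + X) ^ 3 + 4 * (1 + X) ^ 4) := by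
  simp [klE, Finset.sum_range_succ]
private lemma klD13_5 : klD 13 5 = (1 + (1 + X) + (1 + X) ^ 2 + (1 + X) ^ 3 + (1 + X) ^ 4 + (1 + X) ^ 5) := by
  simp [klD, Finset.sum_range_succ]
private lemma klE13_5 : klE 13 5 = ((1 + X) + 2 * (1 + X) ^ 2 + 3 * (1 + X) ^ 3 + 4 * (1 + X) ^ 4 + 5 * (1 + X) ^ 5) := by
  simp [klE, Finset.sum_range_succ]

private lemma klErase13_0 : (Finset.univ.erase (0 : Fin 6)) = {1, 2, 3, 4, 5} := by decide
private lemma klErase13_1 : (Finset.univ.erase (1 : Fin 6)) = {0, 2, 3, 4, 5} := by decide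
private lemma klErase13_2 : (Finset.univ.erase (2 : Fin 6)) = {0, 1, 3, 4, 5} := by decide
private lemma klErase13_3 : (Finset.univ.erase (3 : Fin 6)) = {0, 1, 2, 4, 5} := by decide
private lemma klErase13_4 : (Finset.univ.erase (4 : Fin 6)) = {0, 1, 2, 3, 5} := by decide
private lemma klErase13_5 : (Finset.univ.erase (5 : Fin 6)) = {0, 1, 2, 3, 4} := by decide

private lemma klP13_0 : klE 13 ((0 : Fin 6) : ℕ) * ∏ b ∈ Finset.univ.erase (0 : Fin 6), klD 13 (b : ℕ)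
    = (720 + 6120 * X + 25500 * X ^ 2 + 68850 * X ^ 3 + 134264 * X ^ 4 + 199771 * X ^ 5 + 233830 * X ^ 6 + 218999 * X ^ 7 + 165440 * X ^ 8 + 100914 * X ^ 9 + 49436 * X ^ 10 + 19210 * X ^ 11 + 5795 * X ^ 12 + 1310 * X ^ 13 + 209 * X ^ 14 + 21 * X ^ 15 + 1 * X ^ 16 : (ZMod 13)[X]) := by
  have h1 : klE 13 ((0 : Fin 6) : ℕ) * ∏ b ∈ Finset.univ.erase (0 : Fin 6), klD 13 (b : ℕ)
      = ((1 + X) * ((1 + (1 + X)) * ((1 + (1 + X) + (1 + X) ^ 2) * ((1 + (1 + X) + (1 + X) ^ 2 + (1 + X) ^ 3) * ((1 + (1 + X) + (1 + X) ^ 2 + (1 + X) ^ 3 + (1 + X) ^ 4) * (1 + (1 + X) + (1 + X) ^ 2 + (1 + X) ^ 3 + (1 + X) ^ 4 + (1 + X) ^ 5))))) : (ZMod 13)[X]) := by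
    rw [klErase13_0]
    simp [klE13_0, klD13_1, klD13_2, klD13_3, klD13_4, klD13_5]
  rw [h1]
  ring

private lemma klP13_1 : klE 13 ((1 : Fin 6) : ℕ) * ∏ b ∈ Finset.univ.erase (1 : Fin 6), klD 13 (b : ℕ)
    = (360 + 3240 * X + 14190 * X ^ 2 + 40080 * X ^ 3 + 81517 * X ^ 4 + 126259 * X ^ 5 + 153671 * X ^ 6 + 149579 * X ^ 7 + 117430 * X ^ 8 + 74462 * X ^ 9 + 37944 * X ^ 10 + 15351 * X ^ 11 + 4827 * X ^ 12 + 1139 * X ^ 13 + 190 * X ^ 14 + 20 * X ^ 15 + 1 * X ^ 16 : (ZMod 13)[X]) := by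
  have h1 : klE 13 ((1 : Fin 6) : ℕ) * ∏ b ∈ Finset.univ.erase (1 : Fin 6), klD 13 (b : ℕ)
      = (((1 + X)) * ((1 + X) * ((1 + (1 + X) + (1 + X) ^ 2) * ((1 + (1 + X) + (1 + X) ^ 2 + (1 + X) ^ 3) * ((1 + (1 + X) + (1 + X) ^ 2 + (1 + X) ^ 3 + (1 + X) ^ 4) * (1 + (1 + X) + (1 + X) ^ 2 + (1 + X) ^ 3 + (1 + X) ^ 4 + (1 + X) ^ 5))))) : (ZMod 13)[X]) := by
    rw [klErase13_1]
    simp [klE13_1, klD13_0, klD13_2, klD13_3, klD13_4, klD13_5]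
  rw [h1]
  ring

private lemma klP13_2 : klE 13 ((2 : Fin 6) : ℕ) * ∏ b ∈ Finset.univ.erase (2 : Fin 6), klD 13 (b : ℕ)
    = (720 + 6600 * X + 29340 * X ^ 2 + 83890 * X ^ 3 + 172344 * X ^ 4 + 269137 * X ^ 5 + 329706 * X ^ 6 + 322478 * X ^ 7 + 253945 * X ^ 8 + 161209 * X ^ 9 + 82062 * X ^ 10 + 33081 * X ^ 11 + 10334 * X ^ 12 + 2414 * X ^ 13 + 397 * X ^ 14 + 41 * X ^ 15 + 2 * X ^ 16 : (ZMod 13)[X]) := by
  have h1 : klE 13 ((2 : Fin 6) : ℕ) * ∏ b ∈ Finset.univ.erase (2 : Fin 6), klD 13 (b : ℕ)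
      = (((1 + X) + 2 * (1 + X) ^ 2) * ((1 + X) * ((1 + (1 + X)) * ((1 + (1 + X) + (1 + X) ^ 2 + (1 + X) ^ 3) * ((1 + (1 + X) + (1 + X) ^ 2 + (1 + X) ^ 3 + (1 + X) ^ 4) * (1 + (1 + X) + (1 + X) ^ 2 + (1 + X) ^ 3 + (1 + X) ^ 4 + (1 + X) ^ 5))))) : (ZMod 13)[X]) := by
    rw [klErase13_2]
    simp [klE13_2, klD13_0, klD13_1, klD13_3, klD13_4, klD13_5]
  rw [h1]
  ring

private lemma klP13_3 : klE 13 ((3 : Fin 6) : ℕ) * ∏ b ∈ Finset.univ.erase (3 : Fin 6), klD 13 (b : ℕ)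
    = (1080 + 10080 * X + 45450 * X ^ 2 + 131370 * X ^ 3 + 272061 * X ^ 4 + 427219 * X ^ 5 + 525075 * X ^ 6 + 514125 * X ^ 7 + 404450 * X ^ 8 + 255962 * X ^ 9 + 129638 * X ^ 10 + 51903 * X ^ 11 + 16079 * X ^ 12 + 3721 * X ^ 13 + 606 * X ^ 14 + 62 * X ^ 15 + 3 * X ^ 16 : (ZMod 13)[X]) := by
  have h1 : klE 13 ((3 : Fin 6) : ℕ) * ∏ b ∈ Finset.univ.erase (3 : Fin 6), klD 13 (b : ℕ)
      = (((1 + X) + 2 * (1 + X) ^ 2 + 3 * (1 + X) ^ 3) * ((1 + X) * ((1 + (1 + X)) * ((1 + (1 + X) + (1 + X) ^ 2) * ((1 + (1 + X) + (1 + X) ^ 2 + (1 + X) ^ 3 + (1 + X) ^ 4) * (1 + (1 + X) + (1 + X) ^ 2 + (1 + X) ^ 3 + (1 + X) ^ 4 + (1 + X) ^ 5))))) : (ZMod 13)[X]) := by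
    rw [klErase13_3]
    simp [klE13_3, klD13_0, klD13_1, klD13_2, klD13_4, klD13_5]
  rw [h1]
  ring

private lemma klP13_4 : klE 13 ((4 : Fin 6) : ℕ) * ∏ b ∈ Finset.univ.erase (4 : Fin 6), klD 13 (b : ℕ)
    = (1440 + 13680 * X + 62520 * X ^ 2 + 182436 * X ^ 3 + 380080 * X ^ 4 + 598584 * X ^ 5 + 735896 * X ^ 6 + 719131 * X ^ 7 + 563571 * X ^ 8 + 354815 * X ^ 9 + 178614 * X ^ 10 + 71050 * X ^ 11 + 21870 * X ^ 12 + 5031 * X ^ 13 + 815 * X ^ 14 + 83 * X ^ 15 + 4 * X ^ 16 : (ZMod 13)[X]) := by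
  have h1 : klE 13 ((4 : Fin 6) : ℕ) * ∏ b ∈ Finset.univ.erase (4 : Fin 6), klD 13 (b : ℕ)
      = (((1 + X) + 2 * (1 + X) ^ 2 + 3 * (1 + X) ^ 3 + 4 * (1 + X) ^ 4) * ((1 + X) * ((1 + (1 + X)) * ((1 + (1 + X) + (1 + X) ^ 2) * ((1 + (1 + X) + (1 + X) ^ 2 + (1 + X) ^ 3) * (1 + (1 + X) + (1 + X) ^ 2 + (1 + X) ^ 3 + (1 + X) ^ 4 + (1 + X) ^ 5))))) : (ZMod 13)[X]) := by
    rw [klErase13_4]
    simp [klE13_4, klD13_0, klD13_1, klD13_2, klD13_3, klD13_5]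
  rw [h1]
  ring

private lemma klP13_5 : klE 13 ((5 : Fin 6) : ℕ) * ∏ b ∈ Finset.univ.erase (5 : Fin 6), klD 13 (b : ℕ)
    = (1800 + 17400 * X + 80550 * X ^ 2 + 236980 * X ^ 3 + 495645 * X ^ 4 + 780865 * X ^ 5 + 957795 * X ^ 6 + 932201 * X ^ 7 + 726910 * X ^ 8 + 455224 * X ^ 9 + 227976 * X ^ 10 + 90255 * X ^ 11 + 27665 * X ^ 12 + 6341 * X ^ 13 + 1024 * X ^ 14 + 104 * X ^ 15 + 5 * X ^ 16 : (ZMod 13)[X]) := by
  have h1 : klE 13 ((5 : Fin 6) : ℕ) * ∏ b ∈ Finset.univ.erase (5 : Fin 6), klD 13 (b : ℕ)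
      = (((1 + X) + 2 * (1 + X) ^ 2 + 3 * (1 + X) ^ 3 + 4 * (1 + X) ^ 4 + 5 * (1 + X) ^ 5) * ((1 + X) * ((1 + (1 + X)) * ((1 + (1 + X) + (1 + X) ^ 2) * ((1 + (1 + X) + (1 + X) ^ 2 + (1 + X) ^ 3) * (1 + (1 + X) + (1 + X) ^ 2 + (1 + X) ^ 3 + (1 + X) ^ 4))))) : (ZMod 13)[X]) := by
    rw [klErase13_5]
    simp [klE13_5, klD13_0, klD13_1, klD13_2, klD13_3, klD13_4]
  rw [h1]
  ring

theorem klIndep_thirteen (c : Fin 6 → ZMod 13)
    (h : (X : (ZMod 13)[X]) ^ 11 ∣ ∑ a : Fin 6, C (c a) * (klE 13 a * ∏ b ∈ Finset.univ.erase a, klD 13 b)) :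
    c = 0 := by
  rw [Fin.sum_univ_six, klP13_0, klP13_1, klP13_2, klP13_3, klP13_4, klP13_5] at h
  rw [Polynomial.X_pow_dvd_iff] at h
  have h13 : (13 : ZMod 13) = 0 := by decide
  have e0 := h 0 (by norm_num)
  simp only [coeff_add, coeff_C_mul, coeff_ofNat_mul, coeff_X_pow, coeff_X, coeff_ofNat_zero, coeff_ofNat_succ, coeff_one, coeff_X_zero, coeff_one_zero] at e0
  norm_num at e0
  have e1 := h 1 (by norm_num)
  simp only [coeff_add, coeff_C_mul, coeff_ofNat_mul, coeff_X_pow, coeff_X, coeff_ofNat_zero, coeff_ofNat_succ, coeff_one, coeff_X_zero, coeff_one_zero] at e1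
  norm_num at e1
  have e2 := h 3 (by norm_num)
  simp only [coeff_add, coeff_C_mul, coeff_ofNat_mul, coeff_X_pow, coeff_X, coeff_ofNat_zero, coeff_ofNat_succ, coeff_one, coeff_X_zero, coeff_one_zero] at e2
  norm_num at e2
  have e3 := h 5 (by norm_num)
  simp only [coeff_add, coeff_C_mul, coeff_ofNat_mul, coeff_X_pow, coeff_X, coeff_ofNat_zero, coeff_ofNat_succ, coeff_one, coeff_X_zero, coeff_one_zero] at e3
  norm_num at e3
  have e4 := h 7 (by norm_num)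
  simp only [coeff_add, coeff_C_mul, coeff_ofNat_mul, coeff_X_pow, coeff_X, coeff_ofNat_zero, coeff_ofNat_succ, coeff_one, coeff_X_zero, coeff_one_zero] at e4
  norm_num at e4
  have e5 := h 9 (by norm_num)
  simp only [coeff_add, coeff_C_mul, coeff_ofNat_mul, coeff_X_pow, coeff_X, coeff_ofNat_zero, coeff_ofNat_succ, coeff_one, coeff_X_zero, coeff_one_zero] at e5
  norm_num at e5
  funext j
  fin_cases j
  · show c 0 = 0
    linear_combination (7) * e0 + (11) * e1 + (3) * e2 + (11) * e3 + (10) * e4 + (6) * e5 - ((405528) * c 0 + (268447) * c 1 + (575527) * c 2 + (914537) * c 3 + (1277884) * c 4 + (1658293) * c 5) * h13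
  · show c 1 = 0
    linear_combination (6) * e0 + (3) * e1 + (9) * e2 + (2) * e3 + (6) * e4 + (9) * e5 - ((251084) * c 0 + (168673) * c 1 + (361781) * c 2 + (573992) * c 3 + (799761) * c 4 + (1034444) * c 5) * h13
  · show c 2 = 0
    linear_combination (4) * e0 + (10) * e1 + (0) * e2 + (1) * e3 + (4) * e4 + (4) * e5 - ((118731) * c 0 + (81251) * c 1 + (174828) * c 2 + (277899) * c 3 + (387456) * c 4 + (500905) * c 5) * h13
  · show c 3 = 0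
    linear_combination (2) * e0 + (11) * e1 + (1) * e2 + (9) * e3 + (6) * e4 + (10) * e5 - ((327591) * c 0 + (219605) * c 1 + (471317) * c 2 + (748750) * c 3 + (1045076) * c 4 + (1354247) * c 5) * h13
  · show c 4 = 0
    linear_combination (4) * e0 + (7) * e1 + (5) * e2 + (3) * e3 + (9) * e4 + (1) * e5 - ((235476) * c 0 + (155690) * c 1 + (333804) * c 2 + (530498) * c 3 + (741265) * c 4 + (961656) * c 5) * h13
  · show c 5 = 0
    linear_combination (1) * e0 + (10) * e1 + (8) * e2 + (0) * e3 + (11) * e4 + (3) * e5 - ((255727) * c 0 + (170935) * c 1 + (366825) * c 2 + (582777) * c 3 + (813278) * c 4 + (1053194) * c 5) * h13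

end Fermat.Agent.KummerLemma
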