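import Mathlib
import Fermat.Agent.Lib.Kummer.KLPolyDefs

/-!
# Kummer lemma, polynomial independence for p = 5

Generated data: the images of the cyclotomic units are linearly independent modulo `X ^ (p - 2)`.
-/

set_option autoImplicit false
set_option linter.unusedSimpArgs false
set_option linter.unusedVariables false

open Polynomial

namespace Fermat.Agent.KummerLemma

private lemma klD5_0 : klD 5 0 = (1 + X) := by
  simp [klD, Finset.sum_range_succ]
private lemma klE5_0 : klE 5 0 = (1 + X) := by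
  simp [klE, Finset.sum_range_succ]
private lemma klD5_1 : klD 5 1 = (1 + (1 + X)) := by
  simp [klD, Finset.sum_range_succ]
private lemma klE5_1 : klE 5 1 = ((1 + X)) := by
  simp [klE, Finset.sum_range_succ]

private lemma klErase5_0 : (Finset.univ.erase (0 : Fin 2)) = {1} := by decide
private lemma klErase5_1 : (Finset.univ.erase (1 : Fin 2)) = {0} := by decide

private lemma klP5_0 : klE 5 ((0 : Fin 2) : ℕ) * ∏ b ∈ Finset.univ.erase (0 : Fin 2), klD 5 (b : ℕ)
    = (2 + 3 * X + 1 * X ^ 2 : (ZMod 5)[X]) := by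
  have h1 : klE 5 ((0 : Fin 2) : ℕ) * ∏ b ∈ Finset.univ.erase (0 : Fin 2), klD 5 (b : ℕ)
      = ((1 + X) * (1 + (1 + X)) : (ZMod 5)[X]) := by
    rw [klErase5_0]
    simp [klE5_0, klD5_1]
  rw [h1]
  ring

private lemma klP5_1 : klE 5 ((1 : Fin 2) : ℕ) * ∏ b ∈ Finset.univ.erase (1 : Fin 2), klD 5 (b : ℕ)
    = (1 + 2 * X + 1 * X ^ 2 : (ZMod 5)[X]) := by
  have h1 : klE 5 ((1 : Fin 2) : ℕ) * ∏ b ∈ Finset.univ.erase (1 : Fin 2), klD 5 (b : ℕ)
      = (((1 + X)) * (1 + X) : (ZMod 5)[X]) := by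
    rw [klErase5_1]
    simp [klE5_1, klD5_0]
  rw [h1]
  ring

theorem klIndep_five (c : Fin 2 → ZMod 5)
    (h : (X : (ZMod 5)[X]) ^ 3 ∣ ∑ a : Fin 2, C (c a) * (klE 5 a * ∏ b ∈ Finset.univ.erase a, klD 5 b)) :
    c = 0 := by
  rw [Fin.sum_univ_two, klP5_0, klP5_1] at h
  rw [Polynomial.X_pow_dvd_iff] at h
  have h5 : (5 : ZMod 5) = 0 := by decide
  have e0 := h 0 (by norm_num)
  simp only [coeff_add, coeff_C_mul, coeff_ofNat_mul, coeff_X_pow, coeff_X, coeff_ofNat_zero, coeff_ofNat_succ, coeff_one, coeff_X_zero, coeff_one_zero] at e0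
  norm_num at e0
  have e1 := h 1 (by norm_num)
  simp only [coeff_add, coeff_C_mul, coeff_ofNat_mul, coeff_X_pow, coeff_X, coeff_ofNat_zero, coeff_ofNat_succ, coeff_one, coeff_X_zero, coeff_one_zero] at e1
  norm_num at e1
  funext j
  fin_cases j
  · show c 0 = 0
    linear_combination (2) * e0 + (4) * e1 - ((3) * c 0 + (2) * c 1) * h5
  · show c 1 = 0
    linear_combination (2) * e0 + (2) * e1 - ((2) * c 0 + (1) * c 1) * h5

end Fermat.Agent.KummerLemma
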