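import Mathlib
import Fermat.Agent.Lib.Kummer.KLPolyDefs

/-!
# Kummer lemma, polynomial independence for p = 7

Generated data: the images of the cyclotomic units are linearly independent modulo `X ^ (p - 2)`.
-/

set_option autoImplicit false
set_option linter.unusedSimpArgs false
set_option linter.unusedVariables false

open Polynomial

namespace Fermat.Agent.KummerLemma

private lemma klD7_0 : klD 7 0 = (1 + X) := by
  simp [klD, Finset.sum_range_succ]
private lemma klE7_0 : klE 7 0 = (1 + X) := by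
  simp [klE, Finset.sum_range_succ]
private lemma klD7_1 : klD 7 1 = (1 + (1 + X)) := by
  simp [klD, Finset.sum_range_succ]
private lemma klE7_1 : klE 7 1 = ((1 + X)) := by
  simp [klE, Finset.sum_range_succ]
private lemma klD7_2 : klD 7 2 = (1 + (1 + X) + (1 + X) ^ 2) := by
  simp [klD, Finset.sum_range_succ]
private lemma klE7_2 : klE 7 2 = ((1 + X) + 2 * (1 + X) ^ 2) := by
  simp [klE, Finset.sum_range_succ]

private lemma klErase7_0 : (Finset.univ.erase (0 : Fin 3)) = {1, 2} := by decide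
private lemma klErase7_1 : (Finset.univ.erase (1 : Fin 3)) = {0, 2} := by decide
private lemma klErase7_2 : (Finset.univ.erase (2 : Fin 3)) = {0, 1} := by decide

private lemma klP7_0 : klE 7 ((0 : Fin 3) : ℕ) * ∏ b ∈ Finset.univ.erase (0 : Fin 3), klD 7 (b : ℕ)
    = (6 + 15 * X + 14 * X ^ 2 + 6 * X ^ 3 + 1 * X ^ 4 : (ZMod 7)[X]) := by
  have h1 : klE 7 ((0 : Fin 3) : ℕ) * ∏ b ∈ Finset.univ.erase (0 : Fin 3), klD 7 (b : ℕ)
      = ((1 + X) * ((1 + (1 + X)) * (1 + (1 + X) + (1 + X) ^ 2)) : (ZMod 7)[X]) := by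
    rw [klErase7_0]
    simp [klE7_0, klD7_1, klD7_2]
  rw [h1]
  ring

private lemma klP7_1 : klE 7 ((1 : Fin 3) : ℕ) * ∏ b ∈ Finset.univ.erase (1 : Fin 3), klD 7 (b : ℕ)
    = (3 + 9 * X + 10 * X ^ 2 + 5 * X ^ 3 + 1 * X ^ 4 : (ZMod 7)[X]) := by
  have h1 : klE 7 ((1 : Fin 3) : ℕ) * ∏ b ∈ Finset.univ.erase (1 : Fin 3), klD 7 (b : ℕ)
      = (((1 + X)) * ((1 + X) * (1 + (1 + X) + (1 + X) ^ 2)) : (ZMod 7)[X]) := by
    rw [klErase7_1]
    simp [klE7_1, klD7_0, klD7_2]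
  rw [h1]
  ring

private lemma klP7_2 : klE 7 ((2 : Fin 3) : ℕ) * ∏ b ∈ Finset.univ.erase (2 : Fin 3), klD 7 (b : ℕ)
    = (6 + 19 * X + 22 * X ^ 2 + 11 * X ^ 3 + 2 * X ^ 4 : (ZMod 7)[X]) := by
  have h1 : klE 7 ((2 : Fin 3) : ℕ) * ∏ b ∈ Finset.univ.erase (2 : Fin 3), klD 7 (b : ℕ)
      = (((1 + X) + 2 * (1 + X) ^ 2) * ((1 + X) * (1 + (1 + X))) : (ZMod 7)[X]) := by
    rw [klErase7_2]
    simp [klE7_2, klD7_0, klD7_1]
  rw [h1]
  ring

theorem klIndep_seven (c : Fin 3 → ZMod 7)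
    (h : (X : (ZMod 7)[X]) ^ 5 ∣ ∑ a : Fin 3, C (c a) * (klE 7 a * ∏ b ∈ Finset.univ.erase a, klD 7 b)) :
    c = 0 := by
  rw [Fin.sum_univ_three, klP7_0, klP7_1, klP7_2] at h
  rw [Polynomial.X_pow_dvd_iff] at h
  have h7 : (7 : ZMod 7) = 0 := by decide
  have e0 := h 0 (by norm_num)
  simp only [coeff_add, coeff_C_mul, coeff_ofNat_mul, coeff_X_pow, coeff_X, coeff_ofNat_zero, coeff_ofNat_succ, coeff_one, coeff_X_zero, coeff_one_zero] at e0
  norm_num at e0
  have e1 := h 1 (by norm_num)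
  simp only [coeff_add, coeff_C_mul, coeff_ofNat_mul, coeff_X_pow, coeff_X, coeff_ofNat_zero, coeff_ofNat_succ, coeff_one, coeff_X_zero, coeff_one_zero] at e1
  norm_num at e1
  have e2 := h 3 (by norm_num)
  simp only [coeff_add, coeff_C_mul, coeff_ofNat_mul, coeff_X_pow, coeff_X, coeff_ofNat_zero, coeff_ofNat_succ, coeff_one, coeff_X_zero, coeff_one_zero] at e2
  norm_num at e2
  funext j
  fin_cases j
  · show c 0 = 0
    linear_combination (1) * e0 + (1) * e1 + (6) * e2 - ((8) * c 0 + (6) * c 1 + (13) * c 2) * h7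
  · show c 1 = 0
    linear_combination (3) * e0 + (4) * e1 + (1) * e2 - ((12) * c 0 + (7) * c 1 + (15) * c 2) * h7
  · show c 2 = 0
    linear_combination (0) * e0 + (4) * e1 + (4) * e2 - ((12) * c 0 + (8) * c 1 + (17) * c 2) * h7

end Fermat.Agent.KummerLemma
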