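import Mathlib
import Fermat.Agent.Lib.Kummer.Defs
import Fermat.Agent.Lib.Kummer.KLAssemble
import Fermat.Agent.Lib.Kummer.KLIndep5
import Fermat.Agent.Lib.Kummer.KLIndep7
import Fermat.Agent.Lib.Kummer.KLIndep11
import Fermat.Agent.Lib.Kummer.KLIndep13

/-!
# Kummer's lemma for `p = 5, 7, 11, 13`
-/

open NumberField

namespace Fermat.Agent.Kummer

open Fermat.Agent.KummerLemma

theorem kummerLemma_five (K : Type*) [Field K] [NumberField K] [IsCyclotomicExtension {5} ℚ K] :
    KummerLemmaFor 5 K :=
  haveI : Fact (Nat.Prime 5) := ⟨by norm_num⟩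
  fun u hu => kummerLemma_of_klIndep (p := 5) (by norm_num) (fun c h => klIndep_five c h) u hu

theorem kummerLemma_seven (K : Type*) [Field K] [NumberField K] [IsCyclotomicExtension {7} ℚ K] :
    KummerLemmaFor 7 K :=
  haveI : Fact (Nat.Prime 7) := ⟨by norm_num⟩
  fun u hu => kummerLemma_of_klIndep (p := 7) (by norm_num) (fun c h => klIndep_seven c h) u hu

theorem kummerLemma_eleven (K : Type*) [Field K] [NumberField K] [IsCyclotomicExtension {11} ℚ K] :
    KummerLemmaFor 11 K :=
  haveI : Fact (Nat.Prime 11) := ⟨by norm_num⟩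
  fun u hu => kummerLemma_of_klIndep (p := 11) (by norm_num) (fun c h => klIndep_eleven c h) u hu

theorem kummerLemma_thirteen (K : Type*) [Field K] [NumberField K]
    [IsCyclotomicExtension {13} ℚ K] : KummerLemmaFor 13 K :=
  haveI : Fact (Nat.Prime 13) := ⟨by norm_num⟩
  fun u hu => kummerLemma_of_klIndep (p := 13) (by norm_num) (fun c h => klIndep_thirteen c h) u hu

end Fermat.Agent.Kummer
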