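import Mathlib
import Fermat.Agent.Lib.Kummer.CycLift

/-!
# The ring of integers of `ℚ(ζ₁₁)` is a principal ideal domain
-/

set_option autoImplicit false
set_option linter.unusedSectionVars false

open NumberField Polynomial Ideal Module InfinitePlace Nat Real

namespace Fermat.Agent.Kummer

section

variable (K : Type*) [Field K] [NumberField K] [IsCyclotomicExtension {11} ℚ K]

lemma pid11_minkowski_lt :
    (4 / π) ^ nrComplexPlaces K *
      ((finrank ℚ K)! / (finrank ℚ K) ^ (finrank ℚ K) * √|discr K|) < 60 := by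
  have : Fact (Nat.Prime 11) := ⟨by norm_num⟩
  rw [IsCyclotomicExtension.Rat.discr_prime 11 K, IsCyclotomicExtension.finrank (n := 11) K
    (cyclotomic.irreducible_rat (by norm_num)),
    IsCyclotomicExtension.Rat.nrComplexPlaces_eq_totient_div_two 11,
    totient_prime (by norm_num : Nat.Prime 11)]
  have h1 : (4 / π) ^ 5 < (4 / 3.14) ^ 5 := by
    gcongr
    exact pi_gt_d2
  have h2 : √|(((-1 : ℤ) ^ ((11 - 1) / 2) * (11 : ℤ) ^ (11 - 2) : ℤ) : ℝ)| < 48565 := by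
    rw [Real.sqrt_lt' (by norm_num)]
    norm_num
  have h3 : (0 : ℝ) ≤ √|(((-1 : ℤ) ^ ((11 - 1) / 2) * (11 : ℤ) ^ (11 - 2) : ℤ) : ℝ)| :=
    Real.sqrt_nonneg _
  have h4 : (0 : ℝ) < (4 / π) ^ 5 := by positivity
  have h5 : ((10 : ℕ)! : ℝ) = 3628800 := by
    norm_num [Nat.factorial]
  show (4 / π) ^ ((11 - 1) / 2) * (((11 - 1 : ℕ)! : ℝ) / ((11 - 1 : ℕ) : ℝ) ^ (11 - 1) *
    √|(((-1 : ℤ) ^ ((11 - 1) / 2) * (11 : ℤ) ^ (11 - 2) : ℤ) : ℝ)|) < 60
  norm_num only [h5] at h1 h2 h3 h4 ⊢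
  have h6 : (567 / 1562500 : ℝ) * √2357947691 < 567 / 1562500 * 48565 := by
    have : (0 : ℝ) < 567 / 1562500 := by norm_num
    exact mul_lt_mul_of_pos_left h2 this
  have h7 := mul_lt_mul'' h1 h6 h4.le (by positivity)
  refine h7.trans ?_
  norm_num

lemma pid11_floor_le :
    ⌊(4 / π) ^ nrComplexPlaces K *
      ((finrank ℚ K)! / (finrank ℚ K) ^ (finrank ℚ K) * √|discr K|)⌋₊ ≤ 59 := by
  have h := pid11_minkowski_lt K
  have h0 : (0 : ℝ) ≤ (4 / π) ^ nrComplexPlaces K *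
      ((finrank ℚ K)! / (finrank ℚ K) ^ (finrank ℚ K) * √|discr K|) := by positivity
  exact Nat.lt_succ_iff.mp ((Nat.floor_lt h0).mpr (by exact_mod_cast h))

lemma pid11_pow_order (q d : ℕ) (hq : q.Prime) (hq59 : q ≤ 59) (h11 : q ≠ 11) (h23 : q ≠ 23)
    (hd : 0 < d) (h : q ^ d ≤ 59) : (q : ZMod 11) ^ d ≠ 1 := by
  have hd5 : d ≤ 5 := by
    by_contra hcon
    rw [not_le] at hcon
    have h2 : 2 ^ 6 ≤ q ^ d :=
      (Nat.pow_le_pow_left hq.two_le 6).trans (Nat.pow_le_pow_right hq.pos hcon)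
    omega
  have hq1 : 1 ≤ q := hq.pos
  interval_cases d <;> interval_cases q <;>
    first
    | (exfalso; exact absurd rfl h11)
    | (exfalso; exact absurd rfl h23)
    | (exfalso; revert hq; norm_num; done)
    | (exfalso; revert h; norm_num; done)
    | decide

lemma pid11_sum_four : ∑ i ∈ Finset.range 11, (4 : ZMod 23) ^ i = 0 := by decide

/-- The prime above `23`: kernel of `ζ ↦ 4`. -/
lemma pid11_ker_isPrincipal {ζ : K} (hζ : IsPrimitiveRoot ζ 11) :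
    haveI : Fact (Nat.Prime 11) := ⟨by norm_num⟩
    (RingHom.ker (cycLift hζ (4 : ZMod 23) pid11_sum_four)).IsPrincipal := by
  have : Fact (Nat.Prime 11) := ⟨by norm_num⟩
  set ev : 𝓞 K →+* ZMod 23 := cycLift hζ (4 : ZMod 23) pid11_sum_four with hev
  set z : 𝓞 K := hζ.toInteger with hz
  have hevz : ev z = 4 := cycLift_toInteger hζ _ _
  have hsum : ∑ i ∈ Finset.range 11, z ^ i = 0 := toInteger_geom_sum_eq_zero hζ
  have h23 : (1 + z + z ^ 3) * (-2 - 14 * z - 17 * z ^ 2 - 12 * z ^ 3 - 5 * z ^ 4 - 9 * z ^ 5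
      - 10 * z ^ 6 - 16 * z ^ 7 - 6 * z ^ 8 - 15 * z ^ 9) = 23 := by
    have : (1 + z + z ^ 3) * (-2 - 14 * z - 17 * z ^ 2 - 12 * z ^ 3 - 5 * z ^ 4 - 9 * z ^ 5
      - 10 * z ^ 6 - 16 * z ^ 7 - 6 * z ^ 8 - 15 * z ^ 9) - 23
        = (∑ i ∈ Finset.range 11, z ^ i) * (-25 + 9 * z - 15 * z ^ 2) := by
      simp only [Finset.sum_range_succ, Finset.sum_range_zero]
      ring
    rw [hsum, zero_mul, sub_eq_zero] at this
    exact this
  have hz4 : (1 + z + z ^ 3) * (1 + 3 * z + 3 * z ^ 2 + 2 * z ^ 3 + z ^ 4 + 2 * z ^ 5 + 2 * z ^ 6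
      + 3 * z ^ 7 + z ^ 8 + 3 * z ^ 9) = z - 4 := by
    have : (1 + z + z ^ 3) * (1 + 3 * z + 3 * z ^ 2 + 2 * z ^ 3 + z ^ 4 + 2 * z ^ 5 + 2 * z ^ 6
      + 3 * z ^ 7 + z ^ 8 + 3 * z ^ 9) - (z - 4)
        = (∑ i ∈ Finset.range 11, z ^ i) * (5 - 2 * z + 3 * z ^ 2) := by
      simp only [Finset.sum_range_succ, Finset.sum_range_zero]
      ring
    rw [hsum, zero_mul, sub_eq_zero] at this
    exact this
  refine ⟨1 + z + z ^ 3, ?_⟩
  apply le_antisymm
  · intro x hx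
    rw [RingHom.mem_ker] at hx
    obtain ⟨n, y, hy⟩ := exists_int_sub_dvd_sub hζ 4 x
    rw [← hz] at hy
    have hn : ((n : ℤ) : ZMod 23) = 0 := by
      have := congrArg ev hy
      simp only [map_sub, map_mul, map_intCast, hx, hevz, Int.cast_ofNat] at this
      have h4 : ev 4 = 4 := map_ofNat ev 4
      rw [h4] at this
      simpa using this
    rw [ZMod.intCast_zmod_eq_zero_iff_dvd] at hn
    obtain ⟨m, rfl⟩ := hn
    rw [Ideal.submodule_span_eq, Ideal.mem_span_singleton]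
    have hx' : x = (23 : 𝓞 K) * (m : 𝓞 K) + (z - 4) * y := by
      have : x = (((23 : ℕ) : ℤ) * m : ℤ) + (z - ((4 : ℤ) : 𝓞 K)) * y := by
        rw [← hy]; ring
      rw [this]; push_cast; ring
    rw [hx']
    exact dvd_add (Dvd.dvd.mul_right (Dvd.intro _ h23) _) (Dvd.dvd.mul_right (Dvd.intro _ hz4) _)
  · rw [Ideal.submodule_span_eq, Ideal.span_singleton_le_iff_mem, RingHom.mem_ker]
    simp only [map_add, map_one, map_pow, hevz]
    decide

/-- The ring of integers of the `11`-th cyclotomic field is a principal ideal domain. -/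
theorem pid_eleven : IsPrincipalIdealRing (𝓞 K) := by
  have hfact : Fact (Nat.Prime 11) := ⟨by norm_num⟩
  have hgal : IsGalois ℚ K := IsCyclotomicExtension.isGalois {11} ℚ K
  have hζ := IsCyclotomicExtension.zeta_spec 11 ℚ K
  apply RingOfIntegers.isPrincipalIdealRing_of_isPrincipal_of_lt_or_isPrincipal_of_mem_primesOver_of_mem_Icc
  intro q hq hqprime
  have hq59 : q ≤ 59 := (Finset.mem_Icc.mp hq).2.trans (pid11_floor_le K)
  have hqfact : Fact q.Prime := ⟨hqprime⟩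
  have hspan : (span {(q : ℤ)}).IsPrime :=
    (span_singleton_prime (by exact_mod_cast hqprime.ne_zero)).mpr
      (Nat.prime_iff_prime_int.mp hqprime)
  by_cases h11 : q = 11
  · subst h11
    obtain ⟨⟨P, hP1, hP2⟩⟩ := (span {((11 : ℕ) : ℤ)}).nonempty_primesOver (S := 𝓞 K)
    refine ⟨P, ⟨hP1, hP2⟩, Or.inr ?_⟩
    rw [IsCyclotomicExtension.Rat.eq_span_zeta_sub_one_of_liesOver' 11 K hζ P]
    exact ⟨_, rfl⟩
  by_cases h23 : q = 23
  · subst h23
    refine ⟨RingHom.ker (cycLift hζ (4 : ZMod 23) pid11_sum_four), ⟨RingHom.ker_isPrime _, ?_⟩,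
      Or.inr (pid11_ker_isPrincipal K hζ)⟩
    rw [liesOver_iff, under_def, RingHom.comap_ker]
    have : (cycLift hζ (4 : ZMod 23) pid11_sum_four).comp (algebraMap ℤ (𝓞 K)) =
        Int.castRingHom (ZMod 23) := RingHom.ext_int _ _
    rw [this, ZMod.ker_intCastRingHom]
  · obtain ⟨⟨P, hP1, hP2⟩⟩ := (span {(q : ℤ)}).nonempty_primesOver (S := 𝓞 K)
    refine ⟨P, ⟨hP1, hP2⟩, Or.inl ?_⟩
    have hndvd : ¬ q ∣ 11 := by
      rw [Nat.prime_dvd_prime_iff_eq hqprime (by norm_num)]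
      exact h11
    rw [IsCyclotomicExtension.Rat.inertiaDeg_eq_of_not_dvd q K P (m := 11) hndvd]
    by_contra hcon
    rw [not_lt] at hcon
    have hle : q ^ orderOf (q : ZMod 11) ≤ 59 := hcon.trans (pid11_floor_le K)
    have hq0 : (q : ZMod 11) ≠ 0 := by
      rw [Ne, ZMod.natCast_eq_zero_iff]
      intro h
      exact hndvd ((Nat.prime_dvd_prime_iff_eq (by norm_num) hqprime).mp h ▸ dvd_refl _)
    have hfin : IsOfFinOrder (q : ZMod 11) :=
      isOfFinOrder_iff_pow_eq_one.mpr ⟨10, by norm_num, ZMod.pow_card_sub_one_eq_one hq0⟩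
    exact pid11_pow_order q _ hqprime hq59 h11 h23 (orderOf_pos_iff.mpr hfin) hle
      (pow_orderOf_eq_one _)

end

end Fermat.Agent.Kummer
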