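import Mathlib

/-!
# `ℤ[ζ₁₃]` is a principal ideal domain

We prove that the ring of integers of the 13-th cyclotomic field is a PID, following the
standard Minkowski-bound technique (`M < 313`):

* for every prime `q ≤ 312` other than `3, 13, 53, 79, 131, 157`, the norm `q ^ f` of a prime
  above `q` exceeds the bound (`f` is the order of `q` modulo `13`);
* the prime above `13` is generated by `ζ - 1`;
* for `q = 3, 53, 79, 131, 157` we exhibit an explicit generator of a prime above `q`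
  (via the Kummer-Dedekind description `(q, Q(ζ))` of the primes above `q`).

Main result: `Fermat.Agent.Kummer.pid_thirteen`.
-/

set_option autoImplicit false

open NumberField Polynomial Ideal Module InfinitePlace Nat Real RingOfIntegers NumberField.Ideal

namespace Fermat.Agent.KummerPID13

section Bound

variable (K : Type*) [Field K] [NumberField K] [IsCyclotomicExtension {13} ℚ K]

/-- The Minkowski bound of `ℚ(ζ₁₃)` is less than `313`. -/
lemma minkowski_lt :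
    (4 / π) ^ nrComplexPlaces K *
      ((finrank ℚ K)! / (finrank ℚ K) ^ (finrank ℚ K) * √|discr K|) < 313 := by
  have : Fact (Nat.Prime 13) := ⟨by norm_num⟩
  rw [IsCyclotomicExtension.Rat.discr_prime 13 K, IsCyclotomicExtension.finrank (n := 13) K
    (cyclotomic.irreducible_rat (by simp)),
    IsCyclotomicExtension.Rat.nrComplexPlaces_eq_totient_div_two 13,
    totient_prime (by norm_num : Nat.Prime 13)]
  have hpi : (3.14 : ℝ) < π := Real.pi_gt_d2
  have h1 : (4 / π) ^ 6 ≤ ((4 : ℝ) / 3.14) ^ 6 := by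
    gcongr
  have habs : |((((-1 : ℤ) ^ ((13 - 1) / 2) * ((13 : ℕ) : ℤ) ^ (13 - 2) : ℤ)) : ℝ)| = 13 ^ 11 := by
    norm_num
  have h2 : √((13 : ℝ) ^ 11) ≤ 13 ^ 5 * 3.606 := by
    rw [Real.sqrt_le_iff]
    constructor
    · positivity
    · norm_num
  have hfac : ((12 : ℕ)! : ℝ) = 479001600 := by
    norm_cast
  rw [habs]
  have e1 : (13 - 1) / 2 = 6 := by norm_num
  have e2 : (13 - 1 : ℕ) = 12 := by norm_num
  rw [e1, e2, hfac]
  calc (4 / π) ^ 6 * ((479001600 : ℝ) / ((12 : ℕ) : ℝ) ^ 12 * √((13 : ℝ) ^ 11))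
      ≤ ((4 : ℝ) / 3.14) ^ 6 * ((479001600 : ℝ) / ((12 : ℕ) : ℝ) ^ 12 * (13 ^ 5 * 3.606)) := by
        gcongr
    _ < 313 := by
        norm_num

end Bound

section Order

lemma orderOf_thirteen_pos {q : ℕ} (hq : q.Prime) (h13 : q ≠ 13) : 0 < orderOf (q : ZMod 13) := by
  have : Fact (Nat.Prime 13) := ⟨by norm_num⟩
  rw [orderOf_pos_iff, isOfFinOrder_iff_pow_eq_one]
  refine ⟨12, by norm_num, ?_⟩
  have hne : (q : ZMod 13) ≠ 0 := by
    rw [Ne, ZMod.natCast_eq_zero_iff]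
    intro h
    exact h13 ((Nat.prime_dvd_prime_iff_eq (by norm_num) hq).mp h).symm
  exact ZMod.pow_card_sub_one_eq_one hne

lemma lt_pow_orderOf_thirteen {q : ℕ} (hq : q.Prime) (hq312 : q ≤ 312)
    (h3 : q ≠ 3) (h13 : q ≠ 13) (h53 : q ≠ 53) (h79 : q ≠ 79) (h131 : q ≠ 131) (h157 : q ≠ 157) :
    312 < q ^ orderOf (q : ZMod 13) := by
  have hpos := orderOf_thirteen_pos hq h13
  by_cases hbig : 19 ≤ q
  · -- order ≥ 2 unless q ≡ 1 mod 13
    have hne1 : orderOf (q : ZMod 13) ≠ 1 := by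
      rw [Ne, orderOf_eq_one_iff]
      intro h
      have h1 : ((q : ℕ) : ZMod 13) = ((1 : ℕ) : ZMod 13) := by simpa using h
      rw [ZMod.natCast_eq_natCast_iff'] at h1
      norm_num at h1
      -- q % 13 = 1, q ≤ 312, prime
      obtain ⟨k, rfl⟩ : ∃ k, q = 13 * k + 1 := ⟨q / 13, by omega⟩
      have hk : k ≤ 23 := by omega
      interval_cases k <;> first | omega | (norm_num at hq)
    have h2 : 2 ≤ orderOf (q : ZMod 13) := by omega
    calc 312 < 19 ^ 2 := by norm_num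
      _ ≤ q ^ 2 := Nat.pow_le_pow_left hbig 2
      _ ≤ q ^ orderOf (q : ZMod 13) := Nat.pow_le_pow_right hq.pos h2
  · push Not at hbig
    have hq2 := hq.two_le
    interval_cases q
    all_goals first
      | omega
      | (exfalso; revert hq; norm_num; done)
      | skip
    · -- q = 2
      have : orderOf ((2 : ℕ) : ZMod 13) = 12 := by
        rw [orderOf_eq_iff (by norm_num)]
        refine ⟨by decide, ?_⟩
        decide
      rw [this]; norm_num
    · -- q = 5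
      have : orderOf ((5 : ℕ) : ZMod 13) = 4 := by
        rw [orderOf_eq_iff (by norm_num)]
        refine ⟨by decide, ?_⟩
        decide
      rw [this]; norm_num
    · -- q = 7
      have : orderOf ((7 : ℕ) : ZMod 13) = 12 := by
        rw [orderOf_eq_iff (by norm_num)]
        refine ⟨by decide, ?_⟩
        decide
      rw [this]; norm_num
    · -- q = 11
      have : orderOf ((11 : ℕ) : ZMod 13) = 12 := by
        rw [orderOf_eq_iff (by norm_num)]
        refine ⟨by decide, ?_⟩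
        decide
      rw [this]; norm_num
    · -- q = 17
      have : orderOf ((17 : ℕ) : ZMod 13) = 6 := by
        rw [orderOf_eq_iff (by norm_num)]
        refine ⟨by decide, ?_⟩
        decide
      rw [this]; norm_num

end Order

section Principal

variable (K : Type*) [Field K] [NumberField K] [IsCyclotomicExtension {13} ℚ K]

/-- The chosen primitive 13-th root of unity, as an element of `𝓞 K`. -/
noncomputable abbrev zeta : 𝓞 K := (IsCyclotomicExtension.zeta_spec 13 ℚ K).toInteger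

lemma minpoly_zeta : minpoly ℤ (zeta K) = cyclotomic 13 ℤ := by
  rw [← RingOfIntegers.minpoly_coe, show ((zeta K : 𝓞 K) : K) = IsCyclotomicExtension.zeta 13 ℚ K from rfl,
    ← cyclotomic_eq_minpoly (IsCyclotomicExtension.zeta_spec 13 ℚ K) (by norm_num)]

lemma zeta_sum : 1 + zeta K + zeta K ^ 2 + zeta K ^ 3 + zeta K ^ 4 + zeta K ^ 5 + zeta K ^ 6 +
    zeta K ^ 7 + zeta K ^ 8 + zeta K ^ 9 + zeta K ^ 10 + zeta K ^ 11 + zeta K ^ 12 = 0 := by
  have h := (IsCyclotomicExtension.zeta_spec 13 ℚ K).toInteger_isPrimitiveRoot.geom_sum_eq_zero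
    (by norm_num)
  simpa [Finset.sum_range_succ] using h

lemma exists_principal_of_cert (q : ℕ) [Fact q.Prime] (Q : ℤ[X])
    (hirr : Irreducible (Q.map (Int.castRingHom (ZMod q))))
    (hmonic : (Q.map (Int.castRingHom (ZMod q))).Monic)
    (hdvd : Q.map (Int.castRingHom (ZMod q)) ∣ (cyclotomic 13 ℤ).map (Int.castRingHom (ZMod q)))
    (g : 𝓞 K) (h1 : g ∣ (q : 𝓞 K)) (h2 : g ∣ aeval (zeta K) Q)
    (h3 : g ∈ span {(q : 𝓞 K), aeval (zeta K) Q}) :
    ∃ P ∈ primesOver (span {(q : ℤ)}) (𝓞 K), Submodule.IsPrincipal P := by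
  have h₁ : ¬ q ∣ exponent (zeta K) := by
    rw [exponent_eq_one_iff.mpr <|
      IsCyclotomicExtension.Rat.adjoin_singleton_eq_top (IsCyclotomicExtension.zeta_spec 13 ℚ K)]
    exact (Fact.out : q.Prime).not_dvd_one
  have hQ : Q.map (Int.castRingHom (ZMod q)) ∈ monicFactorsMod (zeta K) q := by
    rw [Multiset.mem_toFinset, Polynomial.mem_normalizedFactors_iff
      (map_monic_ne_zero (minpoly.monic (zeta K).isIntegral))]
    exact ⟨hirr, hmonic, by rwa [minpoly_zeta]⟩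
  refine ⟨((primesOverSpanEquivMonicFactorsMod h₁).symm ⟨_, hQ⟩ : Ideal (𝓞 K)),
    ((primesOverSpanEquivMonicFactorsMod h₁).symm ⟨_, hQ⟩).2, ?_⟩
  rw [primesOverSpanEquivMonicFactorsMod_symm_apply_eq_span h₁ hQ]
  have hspan : span {(q : 𝓞 K), aeval (zeta K) Q} = span {g} := by
    refine le_antisymm (span_le.mpr ?_) ((span_singleton_le_iff_mem _).mpr h3)
    rintro x (rfl | rfl)
    · exact mem_span_singleton.mpr h1
    · exact mem_span_singleton.mpr h2
  rw [hspan]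
  exact ⟨⟨g, rfl⟩⟩


omit [NumberField K] [IsCyclotomicExtension {13} ℚ K] in
lemma sum_pow_53 : ∑ x ∈ Finset.range 13, (36 : ZMod 53) ^ x = 0 := by decide

lemma principal_53 :
    ∃ P ∈ primesOver (span {((53 : ℕ) : ℤ)}) (𝓞 K), Submodule.IsPrincipal P := by
  have : Fact (Nat.Prime 53) := ⟨by norm_num⟩
  have : Fact (Nat.Prime 13) := ⟨by norm_num⟩
  have hζ := zeta_sum K
  refine exists_principal_of_cert K 53 (X - C 36) ?_ ?_ ?_ (1 + zeta K + zeta K ^ 3) ?_ ?_ ?_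
  · simp only [Polynomial.map_sub, map_X, map_C]
    exact irreducible_X_sub_C _
  · simp only [Polynomial.map_sub, map_X, map_C]
    exact monic_X_sub_C _
  · rw [Polynomial.map_sub, map_X, map_C, dvd_iff_isRoot, map_cyclotomic, cyclotomic_prime,
      IsRoot.def, eval_finsetSum]
    simp only [eval_pow, eval_X, eq_intCast, Int.cast_ofNat]
    exact sum_pow_53
  · refine ⟨1 - 24 * zeta K - 35 * zeta K ^ 2 - 25 * zeta K ^ 3 - 10 * zeta K ^ 4 - 14 * zeta K ^ 5 - 20 * zeta K ^ 6 - 29 * zeta K ^ 7 - 16 * zeta K ^ 8 - 23 * zeta K ^ 9 - 7 * zeta K ^ 10 - 36 * zeta K ^ 11, ?_⟩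
    push_cast
    linear_combination (-(-52 + 29 * zeta K - 36 * zeta K ^ 2)) * hζ
  · refine ⟨17 * zeta K + 24 * zeta K ^ 2 + 17 * zeta K ^ 3 + 7 * zeta K ^ 4 + 10 * zeta K ^ 5 + 14 * zeta K ^ 6 + 20 * zeta K ^ 7 + 11 * zeta K ^ 8 + 16 * zeta K ^ 9 + 5 * zeta K ^ 10 + 25 * zeta K ^ 11, ?_⟩
    simp only [map_sub, aeval_X, map_ofNat]
    linear_combination (-(36 - 20 * zeta K + 25 * zeta K ^ 2)) * hζ
  · rw [mem_span_pair]
    refine ⟨881, 1297 + 36 * zeta K + zeta K ^ 2, ?_⟩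
    simp only [map_sub, aeval_X, map_ofNat]
    push_cast
    ring

omit [NumberField K] [IsCyclotomicExtension {13} ℚ K] in
lemma sum_pow_79 : ∑ x ∈ Finset.range 13, (64 : ZMod 79) ^ x = 0 := by decide

lemma principal_79 :
    ∃ P ∈ primesOver (span {((79 : ℕ) : ℤ)}) (𝓞 K), Submodule.IsPrincipal P := by
  have : Fact (Nat.Prime 79) := ⟨by norm_num⟩
  have : Fact (Nat.Prime 13) := ⟨by norm_num⟩
  have hζ := zeta_sum K
  refine exists_principal_of_cert K 79 (X - C 64) ?_ ?_ ?_ (1 + zeta K - zeta K ^ 4) ?_ ?_ ?_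
  · simp only [Polynomial.map_sub, map_X, map_C]
    exact irreducible_X_sub_C _
  · simp only [Polynomial.map_sub, map_X, map_C]
    exact monic_X_sub_C _
  · rw [Polynomial.map_sub, map_X, map_C, dvd_iff_isRoot, map_cyclotomic, cyclotomic_prime,
      IsRoot.def, eval_finsetSum]
    simp only [eval_pow, eval_X, eq_intCast, Int.cast_ofNat]
    exact sum_pow_79
  · refine ⟨24 - 25 * zeta K - 27 * zeta K ^ 2 + 10 * zeta K ^ 3 - 3 * zeta K ^ 4 - 39 * zeta K ^ 5 - 5 * zeta K ^ 6 - 2 * zeta K ^ 7 - 18 * zeta K ^ 8 - 38 * zeta K ^ 9 + 16 * zeta K ^ 10 - 35 * zeta K ^ 11, ?_⟩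
    push_cast
    linear_combination (-(-55 + 54 * zeta K - 51 * zeta K ^ 2 + 35 * zeta K ^ 3)) * hζ
  · refine ⟨-19 + 21 * zeta K + 22 * zeta K ^ 2 - 8 * zeta K ^ 3 + 3 * zeta K ^ 4 + 32 * zeta K ^ 5 + 4 * zeta K ^ 6 + 2 * zeta K ^ 7 + 15 * zeta K ^ 8 + 31 * zeta K ^ 9 - 13 * zeta K ^ 10 + 29 * zeta K ^ 11, ?_⟩
    simp only [map_sub, aeval_X, map_ofNat]
    linear_combination (-(45 - 44 * zeta K + 42 * zeta K ^ 2 - 29 * zeta K ^ 3)) * hζ
  · rw [mem_span_pair]
    refine ⟨-212369, -262143 - 4096 * zeta K - 64 * zeta K ^ 2 - zeta K ^ 3, ?_⟩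
    simp only [map_sub, aeval_X, map_ofNat]
    push_cast
    ring

omit [NumberField K] [IsCyclotomicExtension {13} ℚ K] in
lemma sum_pow_131 : ∑ x ∈ Finset.range 13, (80 : ZMod 131) ^ x = 0 := by decide

lemma principal_131 :
    ∃ P ∈ primesOver (span {((131 : ℕ) : ℤ)}) (𝓞 K), Submodule.IsPrincipal P := by
  have : Fact (Nat.Prime 131) := ⟨by norm_num⟩
  have : Fact (Nat.Prime 13) := ⟨by norm_num⟩
  have hζ := zeta_sum K
  refine exists_principal_of_cert K 131 (X - C 80) ?_ ?_ ?_ (1 - zeta K - zeta K ^ 3) ?_ ?_ ?_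
  · simp only [Polynomial.map_sub, map_X, map_C]
    exact irreducible_X_sub_C _
  · simp only [Polynomial.map_sub, map_X, map_C]
    exact monic_X_sub_C _
  · rw [Polynomial.map_sub, map_X, map_C, dvd_iff_isRoot, map_cyclotomic, cyclotomic_prime,
      IsRoot.def, eval_finsetSum]
    simp only [eval_pow, eval_X, eq_intCast, Int.cast_ofNat]
    exact sum_pow_131
  · refine ⟨111 + 78 * zeta K + 17 * zeta K ^ 2 + 67 * zeta K ^ 3 + 84 * zeta K ^ 4 + 40 * zeta K ^ 5 + 46 * zeta K ^ 6 + 69 * zeta K ^ 7 + 48 * zeta K ^ 8 + 33 * zeta K ^ 9 + 41 * zeta K ^ 10 + 28 * zeta K ^ 11, ?_⟩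
    push_cast
    linear_combination (-(-20 - 13 * zeta K - 28 * zeta K ^ 2)) * hζ
  · refine ⟨-68 - 47 * zeta K - 10 * zeta K ^ 2 - 41 * zeta K ^ 3 - 51 * zeta K ^ 4 - 24 * zeta K ^ 5 - 28 * zeta K ^ 6 - 42 * zeta K ^ 7 - 29 * zeta K ^ 8 - 20 * zeta K ^ 9 - 25 * zeta K ^ 10 - 17 * zeta K ^ 11, ?_⟩
    simp only [map_sub, aeval_X, map_ofNat]
    linear_combination (-(12 + 8 * zeta K + 17 * zeta K ^ 2)) * hζ
  · rw [mem_span_pair]
    refine ⟨-3909, -6401 - 80 * zeta K - zeta K ^ 2, ?_⟩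
    simp only [map_sub, aeval_X, map_ofNat]
    push_cast
    ring

omit [NumberField K] [IsCyclotomicExtension {13} ℚ K] in
lemma sum_pow_157 : ∑ x ∈ Finset.range 13, (75 : ZMod 157) ^ x = 0 := by decide

lemma principal_157 :
    ∃ P ∈ primesOver (span {((157 : ℕ) : ℤ)}) (𝓞 K), Submodule.IsPrincipal P := by
  have : Fact (Nat.Prime 157) := ⟨by norm_num⟩
  have : Fact (Nat.Prime 13) := ⟨by norm_num⟩
  have hζ := zeta_sum K
  refine exists_principal_of_cert K 157 (X - C 75) ?_ ?_ ?_ (1 - zeta K + zeta K ^ 2 + zeta K ^ 4) ?_ ?_ ?_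
  · simp only [Polynomial.map_sub, map_X, map_C]
    exact irreducible_X_sub_C _
  · simp only [Polynomial.map_sub, map_X, map_C]
    exact monic_X_sub_C _
  · rw [Polynomial.map_sub, map_X, map_C, dvd_iff_isRoot, map_cyclotomic, cyclotomic_prime,
      IsRoot.def, eval_finsetSum]
    simp only [eval_pow, eval_X, eq_intCast, Int.cast_ofNat]
    exact sum_pow_157
  · refine ⟨89 + 86 * zeta K + 42 * zeta K ^ 2 + 77 * zeta K ^ 3 + 67 * zeta K ^ 4 + 25 * zeta K ^ 5 + 37 * zeta K ^ 6 + 56 * zeta K ^ 7 + 73 * zeta K ^ 8 + 113 * zeta K ^ 9 + 124 * zeta K ^ 10 + 76 * zeta K ^ 11, ?_⟩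
    push_cast
    linear_combination (-(-68 + 65 * zeta K + 48 * zeta K ^ 2 + 76 * zeta K ^ 3)) * hζ
  · refine ⟨-43 - 41 * zeta K - 20 * zeta K ^ 2 - 37 * zeta K ^ 3 - 32 * zeta K ^ 4 - 12 * zeta K ^ 5 - 18 * zeta K ^ 6 - 27 * zeta K ^ 7 - 35 * zeta K ^ 8 - 54 * zeta K ^ 9 - 59 * zeta K ^ 10 - 36 * zeta K ^ 11, ?_⟩
    simp only [map_sub, aeval_X, map_ofNat]
    linear_combination (-(32 - 31 * zeta K - 23 * zeta K ^ 2 - 36 * zeta K ^ 3)) * hζ
  · rw [mem_span_pair]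
    refine ⟨201568, 421949 + 5626 * zeta K + 75 * zeta K ^ 2 + zeta K ^ 3, ?_⟩
    simp only [map_sub, aeval_X, map_ofNat]
    push_cast
    ring

omit [NumberField K] [IsCyclotomicExtension {13} ℚ K] in
lemma no_root_three : ∀ x : ZMod 3, ¬ (x ^ 3 - x - 1 = 0) := by decide

lemma principal_3 :
    ∃ P ∈ primesOver (span {((3 : ℕ) : ℤ)}) (𝓞 K), Submodule.IsPrincipal P := by
  have : Fact (Nat.Prime 3) := ⟨by norm_num⟩
  have : Fact (Nat.Prime 13) := ⟨by norm_num⟩
  have hζ := zeta_sum K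
  have hmap : (X ^ 3 - X - 1 : ℤ[X]).map (Int.castRingHom (ZMod 3)) = X ^ 3 - X - 1 := by
    simp
  refine exists_principal_of_cert K 3 (X ^ 3 - X - 1) ?_ ?_ ?_ (1 + zeta K - zeta K ^ 3) ?_ ?_ ?_
  · rw [hmap]
    apply irreducible_of_degree_le_three_of_not_isRoot
    · have : (X ^ 3 - X - 1 : (ZMod 3)[X]).natDegree = 3 := by compute_degree!
      rw [this]; decide
    · intro x
      simp only [IsRoot.def, eval_sub, eval_pow, eval_X, eval_one]
      exact no_root_three x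
  · rw [hmap]
    monicity!
  · rw [hmap]
    refine ⟨(20 + 15 * X + 11 * X ^ 2 + 8 * X ^ 3 + 6 * X ^ 4 + 4 * X ^ 5 + 3 * X ^ 6 + 2 * X ^ 7 + X ^ 8 + X ^ 9 : ℤ[X]).map (Int.castRingHom (ZMod 3)), ?_⟩
    have h3 : ((3 : ℤ[X])).map (Int.castRingHom (ZMod 3)) = 0 := by
      rw [show (3 : ℤ[X]) = C (3 : ℤ) from rfl, map_C]
      simp
      rfl
    have key : cyclotomic 13 ℤ = (X ^ 3 - X - 1) * (20 + 15 * X + 11 * X ^ 2 + 8 * X ^ 3 + 6 * X ^ 4 + 4 * X ^ 5 + 3 * X ^ 6 + 2 * X ^ 7 + X ^ 8 + X ^ 9) + 3 * (7 + 12 * X + 9 * X ^ 2) := by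
      rw [cyclotomic_prime]
      simp only [Finset.sum_range_succ, Finset.sum_range_zero]
      ring
    rw [key, Polynomial.map_add, Polynomial.map_mul, Polynomial.map_mul, h3, hmap, zero_mul, add_zero]
  · refine ⟨-1 - zeta K ^ 2 - zeta K ^ 3 - 2 * zeta K ^ 5 - zeta K ^ 7 - 2 * zeta K ^ 8 + zeta K ^ 9 - 3 * zeta K ^ 10, ?_⟩
    push_cast
    linear_combination (-(-4 + 3 * zeta K)) * hζ
  · refine ⟨-1, ?_⟩
    simp only [map_sub, aeval_X, map_pow, map_one]
    ring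
  · rw [mem_span_pair]
    refine ⟨0, -1, ?_⟩
    simp only [map_sub, aeval_X, map_pow, map_one]
    ring


/-- The prime above `13` is principal. -/
lemma principal_13 :
    ∃ P ∈ primesOver (span {((13 : ℕ) : ℤ)}) (𝓞 K), Submodule.IsPrincipal P := by
  have : Fact (Nat.Prime 13) := ⟨by norm_num⟩
  obtain ⟨⟨P, hP1, hP2⟩⟩ := (span {((13 : ℕ) : ℤ)}).nonempty_primesOver (S := 𝓞 K)
  refine ⟨P, ⟨hP1, hP2⟩, ?_⟩
  rw [IsCyclotomicExtension.Rat.eq_span_zeta_sub_one_of_liesOver' 13 K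
    (IsCyclotomicExtension.zeta_spec 13 ℚ K) P]
  exact ⟨⟨_, rfl⟩⟩

end Principal

end Fermat.Agent.KummerPID13

namespace Fermat.Agent.Kummer

open Fermat.Agent.KummerPID13

/-- The ring of integers of the 13-th cyclotomic field is a principal ideal domain. -/
theorem pid_thirteen (K : Type*) [Field K] [NumberField K] [IsCyclotomicExtension {13} ℚ K] :
    IsPrincipalIdealRing (𝓞 K) := by
  have : IsGalois ℚ K := IsCyclotomicExtension.isGalois {13} ℚ K
  have hM : ⌊(4 / π) ^ nrComplexPlaces K *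
      ((finrank ℚ K)! / (finrank ℚ K) ^ (finrank ℚ K) * √|discr K|)⌋₊ ≤ 312 := by
    have h := minkowski_lt K
    apply Nat.le_of_lt_succ
    rw [Nat.floor_lt (by positivity)]
    exact_mod_cast h
  apply RingOfIntegers.isPrincipalIdealRing_of_isPrincipal_of_lt_or_isPrincipal_of_mem_primesOver_of_mem_Icc
  intro q hq hqprime
  have hq312 : q ≤ 312 := (Finset.mem_Icc.mp hq).2.trans hM
  by_cases h3 : q = 3
  · subst h3
    obtain ⟨P, hP, hprin⟩ := principal_3 K
    exact ⟨P, hP, Or.inr hprin⟩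
  by_cases h13 : q = 13
  · subst h13
    obtain ⟨P, hP, hprin⟩ := principal_13 K
    exact ⟨P, hP, Or.inr hprin⟩
  by_cases h53 : q = 53
  · subst h53
    obtain ⟨P, hP, hprin⟩ := principal_53 K
    exact ⟨P, hP, Or.inr hprin⟩
  by_cases h79 : q = 79
  · subst h79
    obtain ⟨P, hP, hprin⟩ := principal_79 K
    exact ⟨P, hP, Or.inr hprin⟩
  by_cases h131 : q = 131
  · subst h131
    obtain ⟨P, hP, hprin⟩ := principal_131 K
    exact ⟨P, hP, Or.inr hprin⟩
  by_cases h157 : q = 157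
  · subst h157
    obtain ⟨P, hP, hprin⟩ := principal_157 K
    exact ⟨P, hP, Or.inr hprin⟩
  have : Fact q.Prime := ⟨hqprime⟩
  obtain ⟨⟨P, hP1, hP2⟩⟩ := (span {(q : ℤ)}).nonempty_primesOver (S := 𝓞 K)
  refine ⟨P, ⟨hP1, hP2⟩, Or.inl ?_⟩
  have hm : ¬ q ∣ 13 := by
    rw [Nat.prime_dvd_prime_iff_eq hqprime (by norm_num)]
    exact h13
  rw [IsCyclotomicExtension.Rat.inertiaDeg_eq_of_not_dvd q K P hm]
  exact lt_of_le_of_lt hM (lt_pow_orderOf_thirteen hqprime hq312 h3 h13 h53 h79 h131 h157)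

end Fermat.Agent.Kummer
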