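import Mathlib

/-!
# The ring of integers of `ℚ(ζ₇)` is a principal ideal domain

The Minkowski bound is `< 5`, and the primes `2`, `3` are inert enough (`2 ^ 3`, `3 ^ 6 > 4`).
-/

set_option autoImplicit false
set_option linter.unusedSectionVars false

open NumberField Polynomial Ideal Module InfinitePlace Nat Real

namespace Fermat.Agent.Kummer

section

variable (K : Type*) [Field K] [NumberField K] [IsCyclotomicExtension {7} ℚ K]

lemma pid7_minkowski_lt :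
    (4 / π) ^ nrComplexPlaces K *
      ((finrank ℚ K)! / (finrank ℚ K) ^ (finrank ℚ K) * √|discr K|) < 5 := by
  have : Fact (Nat.Prime 7) := ⟨by norm_num⟩
  rw [IsCyclotomicExtension.Rat.discr_prime 7 K, IsCyclotomicExtension.finrank (n := 7) K
    (cyclotomic.irreducible_rat (by norm_num)),
    IsCyclotomicExtension.Rat.nrComplexPlaces_eq_totient_div_two 7,
    totient_prime (by norm_num : Nat.Prime 7)]
  have h1 : (4 / π) ^ 3 < (4 / 3) ^ 3 := by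
    gcongr
    exact pi_gt_three
  have h2 : √|(((-1 : ℤ) ^ ((7 - 1) / 2) * (7 : ℤ) ^ (7 - 2) : ℤ) : ℝ)| < 130 := by
    rw [Real.sqrt_lt' (by norm_num)]
    norm_num
  have h5 : ((6 : ℕ)! : ℝ) = 720 := by
    norm_num [Nat.factorial]
  show (4 / π) ^ ((7 - 1) / 2) * (((7 - 1 : ℕ)! : ℝ) / ((7 - 1 : ℕ) : ℝ) ^ (7 - 1) *
    √|(((-1 : ℤ) ^ ((7 - 1) / 2) * (7 : ℤ) ^ (7 - 2) : ℤ) : ℝ)|) < 5
  have h6 : (((7 - 1 : ℕ)! : ℝ) / ((7 - 1 : ℕ) : ℝ) ^ (7 - 1)) *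
      √|(((-1 : ℤ) ^ ((7 - 1) / 2) * (7 : ℤ) ^ (7 - 2) : ℤ) : ℝ)|
        < (720 / 6 ^ 6) * 130 := by
    have h7 : (((7 - 1 : ℕ)! : ℝ) / ((7 - 1 : ℕ) : ℝ) ^ (7 - 1)) = 720 / 6 ^ 6 := by
      rw [show (7 - 1 : ℕ) = 6 from rfl, h5]
      norm_num
    rw [h7]
    exact mul_lt_mul_of_pos_left h2 (by norm_num)
  have h8 : (0 : ℝ) ≤ (((7 - 1 : ℕ)! : ℝ) / ((7 - 1 : ℕ) : ℝ) ^ (7 - 1)) *
      √|(((-1 : ℤ) ^ ((7 - 1) / 2) * (7 : ℤ) ^ (7 - 2) : ℤ) : ℝ)| := by positivity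
  have h9 := mul_lt_mul'' (show (4 / π) ^ ((7 - 1) / 2) < (4 / 3) ^ 3 from h1) h6
    (by positivity) h8
  refine h9.trans ?_
  norm_num

lemma pid7_floor_le :
    ⌊(4 / π) ^ nrComplexPlaces K *
      ((finrank ℚ K)! / (finrank ℚ K) ^ (finrank ℚ K) * √|discr K|)⌋₊ ≤ 4 := by
  have h := pid7_minkowski_lt K
  have h0 : (0 : ℝ) ≤ (4 / π) ^ nrComplexPlaces K *
      ((finrank ℚ K)! / (finrank ℚ K) ^ (finrank ℚ K) * √|discr K|) := by positivity
  exact Nat.lt_succ_iff.mp ((Nat.floor_lt h0).mpr (by exact_mod_cast h))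

lemma pid7_pow_order (q d : ℕ) (hq : q.Prime) (hq4 : q ≤ 4)
    (hd : 0 < d) (h : q ^ d ≤ 4) : (q : ZMod 7) ^ d ≠ 1 := by
  have hd2 : d ≤ 2 := by
    by_contra hcon
    rw [not_le] at hcon
    have h2 : 2 ^ 3 ≤ q ^ d :=
      (Nat.pow_le_pow_left hq.two_le 3).trans (Nat.pow_le_pow_right hq.pos hcon)
    omega
  have hq1 : 2 ≤ q := hq.two_le
  interval_cases d <;> interval_cases q <;>
    first
    | (exfalso; revert hq; norm_num; done)
    | (exfalso; revert h; norm_num; done)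
    | decide

/-- The ring of integers of the `7`-th cyclotomic field is a principal ideal domain. -/
theorem pid_seven : IsPrincipalIdealRing (𝓞 K) := by
  have hfact : Fact (Nat.Prime 7) := ⟨by norm_num⟩
  have hgal : IsGalois ℚ K := IsCyclotomicExtension.isGalois {7} ℚ K
  apply RingOfIntegers.isPrincipalIdealRing_of_isPrincipal_of_lt_or_isPrincipal_of_mem_primesOver_of_mem_Icc
  intro q hq hqprime
  have hq4 : q ≤ 4 := (Finset.mem_Icc.mp hq).2.trans (pid7_floor_le K)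
  have hqfact : Fact q.Prime := ⟨hqprime⟩
  have h7 : q ≠ 7 := by omega
  obtain ⟨⟨P, hP1, hP2⟩⟩ := (span {(q : ℤ)}).nonempty_primesOver (S := 𝓞 K)
  refine ⟨P, ⟨hP1, hP2⟩, Or.inl ?_⟩
  have hndvd : ¬ q ∣ 7 := by
    rw [Nat.prime_dvd_prime_iff_eq hqprime (by norm_num)]
    exact h7
  rw [IsCyclotomicExtension.Rat.inertiaDeg_eq_of_not_dvd q K P (m := 7) hndvd]
  by_contra hcon
  rw [not_lt] at hcon
  have hle : q ^ orderOf (q : ZMod 7) ≤ 4 := hcon.trans (pid7_floor_le K)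
  have hq0 : (q : ZMod 7) ≠ 0 := by
    rw [Ne, ZMod.natCast_eq_zero_iff]
    intro h
    exact h7 ((Nat.prime_dvd_prime_iff_eq (by norm_num) hqprime).mp h).symm
  have hfin : IsOfFinOrder (q : ZMod 7) :=
    isOfFinOrder_iff_pow_eq_one.mpr ⟨6, by norm_num, ZMod.pow_card_sub_one_eq_one hq0⟩
  exact pid7_pow_order q _ hqprime hq4 (orderOf_pos_iff.mpr hfin) hle (pow_orderOf_eq_one _)

end

end Fermat.Agent.Kummer
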